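import Fermat.Agent.LR.RedFrobVal

/-!
# EC / GOOD: the reduction relation `RedTo` is ADDITIVE on torsion prime to the residue
characteristic

`A` a valuation subring of a field `K`, `WA` a Weierstrass curve over `A` with unit discriminant
(general model `a₁, …, a₆`; all residue characteristics), `WK`, `Wk` the two fibres, `n` a unit of
`A`.  `LR/RedFrobVal` has the relation `RedTo P P'` and its injectivity on `n`-torsion
(`eq_of_redTo`).  Here: for `n`-torsion points `P, Q` reducing to `P', Q'`,

* either `P + Q = 0` and `P' + Q' = 0`,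
* or `P + Q` reduces to `P' + Q'`.

The bad case of the chord-tangent formulas (`x̃₁ = x̃₂` but `x₁ ≠ x₂`) is excluded by the
injectivity of the reduction on torsion.
-/

set_option autoImplicit false

open WeierstrassCurve WeierstrassCurve.Affine IsLocalRing Polynomial

namespace Fermat.Agent.EC.Good.RedAdd

open Fermat.Agent.LR.RedFrob

variable {K : Type*} [Field K] {A : ValuationSubring K}

/-- a fraction with unit denominator lies in `A` and reduces to the fraction of the residues. -/
theorem exists_div {num den : A} (hden : residue A den ≠ 0) :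
    ∃ L : A, (L : K) = (num : K) / (den : K) ∧ residue A L = residue A num / residue A den := by
  have hu : IsUnit den := by
    rw [← IsLocalRing.notMem_maximalIdeal]
    intro hmem
    exact hden ((residue_eq_zero_iff _).mpr hmem)
  obtain ⟨v, hv⟩ := hu.exists_right_inv
  have hden0 : (den : K) ≠ 0 := by
    intro h0
    have : den = 0 := Subtype.ext h0
    rw [this, map_zero] at hden
    exact hden rfl
  refine ⟨num * v, ?_, ?_⟩
  · have hvK : (den : K) * (v : K) = 1 := by
      have := congrArg (fun z : A => (z : K)) hv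
      simpa using this
    have : (v : K) = (den : K)⁻¹ := eq_inv_of_mul_eq_one_right hvK
    change (num : K) * (v : K) = _
    rw [this, div_eq_mul_inv]
  · have hvk : residue A den * residue A v = 1 := by rw [← map_mul, hv, map_one]
    have : residue A v = (residue A den)⁻¹ := eq_inv_of_mul_eq_one_right hvk
    rw [map_mul, this, div_eq_mul_inv]

variable {WA : WeierstrassCurve A} {WK : WeierstrassCurve K}
  {Wk : WeierstrassCurve (ResidueField A)}

theorem some_congr {F : Type*} [Field F] {W : Affine F} {x y x' y' : F} (h : W.Nonsingular x y)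
    (hx : x = x') (hy : y = y') :
    ∃ h' : W.Nonsingular x' y', Point.some x y h = Point.some x' y' h' := by
  subst hx hy
  exact ⟨h, rfl⟩

/-- `RedTo` is compatible with negation. -/
theorem redTo_neg (hK : WK = WA.map (algebraMap A K)) (hk : Wk = WA.map (residue A))
    {P : WK.toAffine.Point} {P' : Wk.toAffine.Point} (h : RedTo A WK Wk P P') :
    RedTo A WK Wk (-P) (-P') := by
  obtain ⟨x, y, hxy, hq, rfl, rfl⟩ := h
  subst hK hk
  have e1 : (WA.map (algebraMap A K)).toAffine.negY (x : K) (y : K) =
      ((WA.toAffine.negY x y : A) : K) :=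
    WeierstrassCurve.Affine.map_negY (W' := WA.toAffine) (f := algebraMap A K) (x := x) (y := y)
  have e2 : (WA.map (residue A)).toAffine.negY (residue A x) (residue A y) =
      residue A (WA.toAffine.negY x y) :=
    WeierstrassCurve.Affine.map_negY (W' := WA.toAffine) (f := residue A) (x := x) (y := y)
  obtain ⟨h1, hh1⟩ := some_congr ((nonsingular_neg ..).mpr hxy) rfl e1
  obtain ⟨h2, hh2⟩ := some_congr ((nonsingular_neg ..).mpr hq) rfl e2
  refine ⟨x, WA.toAffine.negY x y, h1, h2, ?_, ?_⟩
  · rw [Point.neg_some, hh1]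
  · rw [Point.neg_some, hh2]

variable [DecidableEq K] [DecidableEq (ResidueField A)]

/-- the slope of two integral points is integral and reduces to the slope of the reductions,
as soon as the reductions are not opposite and `x̃₁ = x̃₂` forces the points to be equal. -/
theorem exists_slope {x₁ x₂ y₁ y₂ : A}
    (hxy : ¬ (residue A x₁ = residue A x₂ ∧
      residue A y₁ = (WA.map (residue A)).toAffine.negY (residue A x₂) (residue A y₂)))
    (heq : residue A x₁ = residue A x₂ → x₁ = x₂ ∧ y₁ = y₂) :
    ∃ L : A, (L : K) = (WA.map (algebraMap A K)).toAffine.slope (x₁ : K) (x₂ : K) (y₁ : K) (y₂ : K) ∧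
      residue A L = (WA.map (residue A)).toAffine.slope (residue A x₁) (residue A x₂)
        (residue A y₁) (residue A y₂) := by
  by_cases hx : residue A x₁ = residue A x₂
  · obtain ⟨rfl, rfl⟩ := heq hx
    have hy : residue A y₁ ≠ (WA.map (residue A)).toAffine.negY (residue A x₁) (residue A y₁) :=
      fun h => hxy ⟨rfl, h⟩
    have e2 : (WA.map (residue A)).toAffine.negY (residue A x₁) (residue A y₁) =
        residue A (WA.toAffine.negY x₁ y₁) :=
      WeierstrassCurve.Affine.map_negY (W' := WA.toAffine) (f := residue A) (x := x₁) (y := y₁)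
    have e1 : (WA.map (algebraMap A K)).toAffine.negY (x₁ : K) (y₁ : K) =
        ((WA.toAffine.negY x₁ y₁ : A) : K) :=
      WeierstrassCurve.Affine.map_negY (W' := WA.toAffine) (f := algebraMap A K) (x := x₁)
        (y := y₁)
    have hden : residue A (y₁ - WA.toAffine.negY x₁ y₁) ≠ 0 := by
      rw [map_sub, ← e2]
      exact sub_ne_zero.mpr hy
    obtain ⟨L, hL1, hL2⟩ := exists_div
      (num := 3 * x₁ ^ 2 + 2 * WA.a₂ * x₁ + WA.a₄ - WA.a₁ * y₁) hden
    have hyK : (y₁ : K) ≠ (WA.map (algebraMap A K)).toAffine.negY (x₁ : K) (y₁ : K) := by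
      intro h
      rw [e1] at h
      have : y₁ = WA.toAffine.negY x₁ y₁ := Subtype.ext h
      apply hy
      rw [e2, ← this]
    have c3 : ((3 : A) : K) = 3 := map_ofNat (algebraMap A K) 3
    have c2 : ((2 : A) : K) = 2 := map_ofNat (algebraMap A K) 2
    refine ⟨L, ?_, ?_⟩
    · rw [hL1, slope_of_Y_ne rfl hyK, e1]
      simp [c3, c2]
    · rw [hL2, slope_of_Y_ne rfl hy, e2]
      simp [map_ofNat]
  · have hden : residue A (x₁ - x₂) ≠ 0 := by
      rw [map_sub]
      exact sub_ne_zero.mpr hx
    obtain ⟨L, hL1, hL2⟩ := exists_div (num := y₁ - y₂) hden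
    have hxK : (x₁ : K) ≠ (x₂ : K) := by
      intro h
      exact hx (congrArg _ (Subtype.ext h))
    refine ⟨L, ?_, ?_⟩
    · rw [hL1, slope_of_X_ne hxK]
      simp
    · rw [hL2, slope_of_X_ne hx]
      simp

/-- **Additivity of the reduction on `n`-torsion.** -/
theorem redTo_add (hK : WK = WA.map (algebraMap A K)) (hk : Wk = WA.map (residue A))
    (hΔ : IsUnit WA.Δ) {n : ℕ} (hn : A.valuation (n : K) = 1)
    {P Q : WK.toAffine.Point} {P' Q' : Wk.toAffine.Point}
    (hP : RedTo A WK Wk P P') (hQ : RedTo A WK Wk Q Q') (hPn : n • P = 0) (hQn : n • Q = 0) :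
    (P + Q = 0 ∧ P' + Q' = 0) ∨ RedTo A WK Wk (P + Q) (P' + Q') := by
  have hP0 := hP
  have hQ0 := hQ
  obtain ⟨x₁, y₁, h₁, q₁, rfl, rfl⟩ := hP
  obtain ⟨x₂, y₂, h₂, q₂, rfl, rfl⟩ := hQ
  by_cases hxy : residue A x₁ = residue A x₂ ∧
      residue A y₁ = Wk.toAffine.negY (residue A x₂) (residue A y₂)
  · left
    have hsum' : Point.some _ _ q₁ + Point.some _ _ q₂ = 0 := Point.add_of_Y_eq hxy.1 hxy.2
    refine ⟨?_, hsum'⟩
    have hnegQ := redTo_neg hK hk hQ0
    have hP'eq : Point.some _ _ q₁ = -Point.some _ _ q₂ := eq_neg_of_add_eq_zero_left hsum'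
    rw [← hP'eq] at hnegQ
    have hnegn : n • (-Point.some _ _ h₂) = 0 := by rw [smul_neg, hQn, neg_zero]
    have := eq_of_redTo hK hΔ hn hP0 hnegQ hPn hnegn
    rw [this, neg_add_cancel]
  · right
    -- `x̃₁ = x̃₂` forces equality of the points
    have heq : residue A x₁ = residue A x₂ → x₁ = x₂ ∧ y₁ = y₂ := by
      intro hx
      have hy : residue A y₁ = residue A y₂ := by
        rcases Y_eq_of_X_eq q₁.1 q₂.1 hx with h | h
        · exact h
        · exact absurd ⟨hx, h⟩ hxy
      have hPQ' : Point.some _ _ q₁ = Point.some _ _ q₂ := by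
        simp only [Point.some.injEq]
        exact ⟨hx, hy⟩
      have hQ1 : RedTo A WK Wk (Point.some _ _ h₂) (Point.some _ _ q₁) := by
        rw [hPQ']; exact hQ0
      have := eq_of_redTo hK hΔ hn hP0 hQ1 hPn hQn
      simp only [Point.some.injEq] at this
      exact ⟨Subtype.ext this.1, Subtype.ext this.2⟩
    subst hK hk
    obtain ⟨L, hL1, hL2⟩ := exists_slope (WA := WA) hxy heq
    -- not opposite over `K`
    have hxyK : ¬ ((x₁ : K) = (x₂ : K) ∧
        (y₁ : K) = (WA.map (algebraMap A K)).toAffine.negY (x₂ : K) (y₂ : K)) := by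
      rintro ⟨hx, hy⟩
      have e1 : (WA.map (algebraMap A K)).toAffine.negY (x₂ : K) (y₂ : K) =
          ((WA.toAffine.negY x₂ y₂ : A) : K) :=
        WeierstrassCurve.Affine.map_negY (W' := WA.toAffine) (f := algebraMap A K) (x := x₂)
          (y := y₂)
      have e2 : (WA.map (residue A)).toAffine.negY (residue A x₂) (residue A y₂) =
          residue A (WA.toAffine.negY x₂ y₂) :=
        WeierstrassCurve.Affine.map_negY (W' := WA.toAffine) (f := residue A) (x := x₂) (y := y₂)
      rw [e1] at hy
      have hx' : x₁ = x₂ := Subtype.ext hx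
      have hy' : y₁ = WA.toAffine.negY x₂ y₂ := Subtype.ext hy
      apply hxy
      rw [e2, ← hy', hx']
      exact ⟨rfl, rfl⟩
    -- the coordinates of the sum
    have eX1 : (WA.map (algebraMap A K)).toAffine.addX (x₁ : K) (x₂ : K)
        ((WA.map (algebraMap A K)).toAffine.slope (x₁ : K) (x₂ : K) (y₁ : K) (y₂ : K)) =
          ((WA.toAffine.addX x₁ x₂ L : A) : K) := by
      rw [← hL1]
      exact WeierstrassCurve.Affine.map_addX (W' := WA.toAffine) (f := algebraMap A K)
        (x₁ := x₁) (x₂ := x₂) (ℓ := L)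
    have eY1 : (WA.map (algebraMap A K)).toAffine.addY (x₁ : K) (x₂ : K) (y₁ : K)
        ((WA.map (algebraMap A K)).toAffine.slope (x₁ : K) (x₂ : K) (y₁ : K) (y₂ : K)) =
          ((WA.toAffine.addY x₁ x₂ y₁ L : A) : K) := by
      rw [← hL1]
      exact WeierstrassCurve.Affine.map_addY (W' := WA.toAffine) (f := algebraMap A K)
        (x₁ := x₁) (x₂ := x₂) (y₁ := y₁) (ℓ := L)
    have eX2 : (WA.map (residue A)).toAffine.addX (residue A x₁) (residue A x₂)
        ((WA.map (residue A)).toAffine.slope (residue A x₁) (residue A x₂) (residue A y₁)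
          (residue A y₂)) = residue A (WA.toAffine.addX x₁ x₂ L) := by
      rw [← hL2]
      exact WeierstrassCurve.Affine.map_addX (W' := WA.toAffine) (f := residue A)
        (x₁ := x₁) (x₂ := x₂) (ℓ := L)
    have eY2 : (WA.map (residue A)).toAffine.addY (residue A x₁) (residue A x₂) (residue A y₁)
        ((WA.map (residue A)).toAffine.slope (residue A x₁) (residue A x₂) (residue A y₁)
          (residue A y₂)) = residue A (WA.toAffine.addY x₁ x₂ y₁ L) := by
      rw [← hL2]
      exact WeierstrassCurve.Affine.map_addY (W' := WA.toAffine) (f := residue A)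
        (x₁ := x₁) (x₂ := x₂) (y₁ := y₁) (ℓ := L)
    obtain ⟨n1, hn1⟩ := some_congr (nonsingular_add h₁ h₂ hxyK) eX1 eY1
    obtain ⟨n2, hn2⟩ := some_congr (nonsingular_add q₁ q₂ hxy) eX2 eY2
    refine ⟨WA.toAffine.addX x₁ x₂ L, WA.toAffine.addY x₁ x₂ y₁ L, n1, n2, ?_, ?_⟩
    · rw [Point.add_some hxyK, hn1]
    · rw [Point.add_some hxy, hn2]

end Fermat.Agent.EC.Good.RedAdd
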