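import Mathlib
import Fermat.Agent.LR.RedFrobVal
import Fermat.Agent.EC.Good.RedAdd

/-!
# Program E (S58), node GOOD, core (helper19): the reduction map on prime-to-residue-characteristic
torsion is an injective (and, when roots lift, surjective) group homomorphism

`A` a valuation subring of a field `K`, `WA` a Weierstrass curve over `A` with unit discriminant,
`WK = WA ⊗ K`, `Wk = WA ⊗ k` (`k` the residue field).  With `LR.RedFrob.RedTo` and
`EC.Good.RedAdd.redTo_add` (both on main):

* `red A WK Wk : WK.Point → Wk.Point` : the (total) reduction map (`0` where undefined);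
  `red_zero`, `red_eq_of_redTo`, `redTo_red`;
* for `m` a unit of `A` and `m`-torsion points: `red_eq_zero_iff`, `red_inj`, `red_neg`,
  **`red_add`**, `nsmul_red`, `red_nsmul`, `red_zsmul`, `addOrderOf_red`, `exists_red_eq`;
* `redHom : E(K)[m] →+ Ẽ(k)[m]`, `redHom_injective`, `redHom_surjective` (roots lift:
  `LR.RedFrob.RootLift A`, e.g. `K` algebraically closed).
-/

set_option autoImplicit false
set_option linter.unusedSectionVars false

open WeierstrassCurve WeierstrassCurve.Affine IsLocalRing Polynomial

namespace Fermat.Agent.EC.Good.Red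

open Fermat.Agent.LR.RedFrob

variable {K : Type*} [Field K] (A : ValuationSubring K)
variable {WA : WeierstrassCurve A} (WK : WeierstrassCurve K)
  (Wk : WeierstrassCurve (ResidueField A))

/-! ### The reduction map -/

section Def

variable {A WK Wk}

/-- the reduction of a point is unique -/
theorem RedTo.unique {P : WK.toAffine.Point} {Q Q' : Wk.toAffine.Point}
    (h : RedTo A WK Wk P Q) (h' : RedTo A WK Wk P Q') : Q = Q' := by
  obtain ⟨x, y, hxy, hq, rfl, rfl⟩ := h
  obtain ⟨x', y', hxy', hq', hP, rfl⟩ := h'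
  have hc : (x : K) = x' ∧ (y : K) = y' := by simpa using hP
  have hx : x = x' := Subtype.ext hc.1
  have hy : y = y' := Subtype.ext hc.2
  subst hx hy
  rfl

end Def

open Classical in
/-- **The reduction map** (total: `0` at the points which do not reduce to an affine point). -/
noncomputable def red (P : WK.toAffine.Point) : Wk.toAffine.Point :=
  if h : ∃ Q, RedTo A WK Wk P Q then h.choose else 0

variable {A WK Wk}

theorem red_eq_of_redTo {P : WK.toAffine.Point} {Q : Wk.toAffine.Point}
    (h : RedTo A WK Wk P Q) : red A WK Wk P = Q := by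
  have hex : ∃ Q, RedTo A WK Wk P Q := ⟨Q, h⟩
  rw [red, dif_pos hex]
  exact RedTo.unique hex.choose_spec h

@[simp] theorem red_zero : red A WK Wk 0 = 0 := by
  rw [red, dif_neg]
  rintro ⟨Q, hQ⟩
  exact hQ.ne_zero_left rfl

/-! ### Torsion prime to the residue characteristic -/

section Torsion

variable [DecidableEq K] [DecidableEq (ResidueField A)]

section

variable (hK : WK = WA.map (algebraMap A K)) (hk : Wk = WA.map (residue A)) (hΔ : IsUnit WA.Δ)
  {m : ℕ} (hm : A.valuation (m : K) = 1)

include hK hk hΔ hm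

/-- a nonzero `m`-torsion point reduces to its reduction -/
theorem redTo_red {P : WK.toAffine.Point} (hP0 : P ≠ 0) (hP : m • P = 0) :
    RedTo A WK Wk P (red A WK Wk P) := by
  obtain ⟨Q, hQ⟩ := exists_redTo_of_torsion hK hk hΔ hm hP0 hP
  rw [red_eq_of_redTo hQ]
  exact hQ

theorem red_eq_zero_iff {P : WK.toAffine.Point} (hP : m • P = 0) :
    red A WK Wk P = 0 ↔ P = 0 := by
  constructor
  · intro h
    by_contra hP0
    exact (redTo_red hK hk hΔ hm hP0 hP).ne_zero_right h
  · rintro rfl
    exact red_zero

/-- the reduction is injective on `m`-torsion -/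
theorem red_inj {P Q : WK.toAffine.Point} (hP : m • P = 0) (hQ : m • Q = 0)
    (h : red A WK Wk P = red A WK Wk Q) : P = Q := by
  by_cases hP0 : P = 0
  · subst hP0
    rw [red_zero] at h
    exact ((red_eq_zero_iff hK hk hΔ hm hQ).mp h.symm).symm
  · have hQ0 : Q ≠ 0 := by
      rintro rfl
      rw [red_zero] at h
      exact hP0 ((red_eq_zero_iff hK hk hΔ hm hP).mp h)
    have h1 := redTo_red hK hk hΔ hm hP0 hP
    have h2 := redTo_red hK hk hΔ hm hQ0 hQ
    rw [← h] at h2
    exact eq_of_redTo hK hΔ hm h1 h2 hP hQ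

theorem red_neg {P : WK.toAffine.Point} (hP : m • P = 0) :
    red A WK Wk (-P) = -red A WK Wk P := by
  by_cases hP0 : P = 0
  · subst hP0
    simp
  · exact red_eq_of_redTo (RedAdd.redTo_neg hK hk (redTo_red hK hk hΔ hm hP0 hP))

/-- **the reduction is additive on `m`-torsion** -/
theorem red_add {P Q : WK.toAffine.Point} (hP : m • P = 0) (hQ : m • Q = 0) :
    red A WK Wk (P + Q) = red A WK Wk P + red A WK Wk Q := by
  by_cases hP0 : P = 0
  · subst hP0
    simp
  by_cases hQ0 : Q = 0
  · subst hQ0
    simp
  have h1 := redTo_red hK hk hΔ hm hP0 hP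
  have h2 := redTo_red hK hk hΔ hm hQ0 hQ
  rcases RedAdd.redTo_add hK hk hΔ hm h1 h2 hP hQ with ⟨h, h'⟩ | h
  · rw [h, red_zero, h']
  · exact red_eq_of_redTo h

/-- the reduction of an `m`-torsion point is `m`-torsion -/
theorem nsmul_red {P : WK.toAffine.Point} (hP : m • P = 0) : m • red A WK Wk P = 0 := by
  by_cases hP0 : P = 0
  · subst hP0
    simp
  · exact nsmul_eq_zero_of_redTo hK hk (redTo_red hK hk hΔ hm hP0 hP) hP

theorem red_nsmul {P : WK.toAffine.Point} (hP : m • P = 0) (n : ℕ) :
    red A WK Wk (n • P) = n • red A WK Wk P := by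
  induction n with
  | zero => simp
  | succ n ih =>
    have hn : m • (n • P) = 0 := by rw [smul_comm, hP, smul_zero]
    rw [succ_nsmul, succ_nsmul, red_add hK hk hΔ hm hn hP, ih]

theorem red_zsmul {P : WK.toAffine.Point} (hP : m • P = 0) (n : ℤ) :
    red A WK Wk (n • P) = n • red A WK Wk P := by
  cases n with
  | ofNat n =>
    simp only [Int.ofNat_eq_natCast, natCast_zsmul]
    exact red_nsmul hK hk hΔ hm hP n
  | negSucc n =>
    have hn : m • ((n + 1) • P) = 0 := by rw [smul_comm, hP, smul_zero]
    rw [negSucc_zsmul, negSucc_zsmul, red_neg hK hk hΔ hm hn, red_nsmul hK hk hΔ hm hP]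

/-- the reduction preserves the exact order of `m`-torsion points -/
theorem addOrderOf_red {P : WK.toAffine.Point} (hP : m • P = 0) :
    addOrderOf (red A WK Wk P) = addOrderOf P := by
  rw [addOrderOf_eq_addOrderOf_iff]
  intro n
  have hn : m • (n • P) = 0 := by rw [smul_comm, hP, smul_zero]
  rw [← red_nsmul hK hk hΔ hm hP n, red_eq_zero_iff hK hk hΔ hm hn]

/-- a unit in the valuation sense is a unit of `A` -/
theorem isUnit_natCast : IsUnit (m : A) := by
  rw [A.valuation_eq_one_iff]
  have : (((m : A) : A) : K) = (m : K) := by simp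
  rw [this]
  exact hm

/-- **surjectivity**: when roots lift, every `m`-torsion point of the special fibre is the reduction
of an `m`-torsion point of the generic fibre -/
theorem exists_red_eq (hlift : RootLift A) {Q : Wk.toAffine.Point} (hQ : m • Q = 0) :
    ∃ P : WK.toAffine.Point, m • P = 0 ∧ red A WK Wk P = Q := by
  by_cases hQ0 : Q = 0
  · subst hQ0
    exact ⟨0, smul_zero _, red_zero⟩
  · obtain ⟨P, hPQ, hP⟩ := exists_redTo_lift hlift hK hk hΔ (isUnit_natCast hK hk hΔ hm) hQ0 hQ
    exact ⟨P, hP, red_eq_of_redTo hPQ⟩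

/-- **The reduction homomorphism on `m`-torsion.** -/
noncomputable def redHom :
    Submodule.torsionBy ℤ WK.toAffine.Point (m : ℤ) →+
      Submodule.torsionBy ℤ Wk.toAffine.Point (m : ℤ) where
  toFun P := ⟨red A WK Wk P.1, by
    have hP : m • P.1 = 0 := by
      have := (Submodule.mem_torsionBy_iff _ _).mp P.2
      rwa [natCast_zsmul] at this
    rw [Submodule.mem_torsionBy_iff, natCast_zsmul]
    exact nsmul_red hK hk hΔ hm hP⟩
  map_zero' := Subtype.ext red_zero
  map_add' P Q := by
    have hP : m • P.1 = 0 := by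
      have := (Submodule.mem_torsionBy_iff _ _).mp P.2
      rwa [natCast_zsmul] at this
    have hQ : m • Q.1 = 0 := by
      have := (Submodule.mem_torsionBy_iff _ _).mp Q.2
      rwa [natCast_zsmul] at this
    exact Subtype.ext (red_add hK hk hΔ hm hP hQ)

@[simp] theorem redHom_apply (P : Submodule.torsionBy ℤ WK.toAffine.Point (m : ℤ)) :
    ((redHom hK hk hΔ hm P : Submodule.torsionBy ℤ Wk.toAffine.Point (m : ℤ)) :
      Wk.toAffine.Point) = red A WK Wk P.1 := rfl

theorem redHom_injective : Function.Injective (redHom hK hk hΔ hm) := by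
  intro P Q h
  have hP : m • P.1 = 0 := by
    have := (Submodule.mem_torsionBy_iff _ _).mp P.2
    rwa [natCast_zsmul] at this
  have hQ : m • Q.1 = 0 := by
    have := (Submodule.mem_torsionBy_iff _ _).mp Q.2
    rwa [natCast_zsmul] at this
  have h' : red A WK Wk P.1 = red A WK Wk Q.1 := congrArg Subtype.val h
  exact Subtype.ext (red_inj hK hk hΔ hm hP hQ h')

theorem redHom_surjective (hlift : RootLift A) : Function.Surjective (redHom hK hk hΔ hm) := by
  intro Q
  have hQ : m • Q.1 = 0 := by
    have := (Submodule.mem_torsionBy_iff _ _).mp Q.2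
    rwa [natCast_zsmul] at this
  obtain ⟨P, hP, hPQ⟩ := exists_red_eq hK hk hΔ hm hlift hQ
  refine ⟨⟨P, ?_⟩, Subtype.ext hPQ⟩
  rw [Submodule.mem_torsionBy_iff, natCast_zsmul]
  exact hP

end

end Torsion

end Fermat.Agent.EC.Good.Red
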