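import Mathlib
import Fermat.Agent.EC.Good.Red
import Fermat.Agent.LR.RedFrobPlug
import Fermat.Agent.LR.RedFrobCount

/-!
# Program E (S58), node GOOD (helper19): the reduction map of an integral model at a good prime

`W : WeierstrassCurve ℤ`, `l` a good prime, `A` a place of `ℚ̄` over `l`, `k_A` its residue field with
ANY `Algebra (ZMod l) k_A` structure.  Model vocabulary on top of `EC/Good/Red.lean`:

* `WK W`, `Wk W l A`, `WA W A` : the generic fibre (Prelude shape), the special fibre
  (`LR/RedFrobCount` shape `(W.reductionMod l).toAffine⁄k_A`) and the model over `A`;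
  `hK`, `hk`, `hΔ`, `valuation_natCast` : the hypotheses of `EC/Good/Red.lean`;
* `redM W l A : E(ℚ̄) → Ẽ(k_A)` and its properties on prime-to-`l` torsion;
* `FrobCompat W l A φ` : the Frobenius compatibility of the reduction relation (proved in
  `EC/Good/FrobTo.lean`), `redM_frob`;
* **`exists_eigen_iff_residue`** : for `m` prime to `l` and `n : ℤ`,
  `(∃ P ≠ 0 in E(ℚ̄), m • P = 0 ∧ φ • P = n • P) ↔ (∃ Q ≠ 0 in Ẽ(k_A), m • Q = 0 ∧ π Q = n • Q)`;
* `addOrderOf_redM`, `exists_redM_eq`, `redM_fixed_iff`, `redM_frob_frob`.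
-/

set_option autoImplicit false
set_option linter.unusedSectionVars false

open WeierstrassCurve WeierstrassCurve.Affine IsLocalRing Polynomial

namespace Fermat.Agent.EC.Good.Eigen

open Fermat.Agent.LR.RedFrob Fermat.Agent.EC.Good

local notation "Qb" => AlgebraicClosure ℚ

variable [DecidableEq Qb]

section Model

variable (W : WeierstrassCurve ℤ) (l : ℕ) (A : ValuationSubring Qb)

/-- the generic fibre, in the Prelude's shape -/
noncomputable abbrev WK : WeierstrassCurve Qb := ((W.map (Int.castRingHom ℚ))⁄Qb)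

/-- the model over the valuation ring -/
noncomputable abbrev WA : WeierstrassCurve A := W.map (Int.castRingHom A)

variable [Algebra (ZMod l) (ResidueField A)]

/-- the special fibre, in the shape of `LR/RedFrobCount` -/
noncomputable abbrev Wk : WeierstrassCurve (ResidueField A) :=
  ((W.reductionMod l).toAffine⁄(ResidueField A))

theorem hK : WK W = (WA W A).map (algebraMap A Qb) := baseChange_eq_map W A

theorem hk : Wk W l A = (WA W A).map (residue A) := by
  change (W.reductionMod l).map (algebraMap (ZMod l) (ResidueField A)) = _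
  rw [WeierstrassCurve.reductionMod, WeierstrassCurve.map_map, WeierstrassCurve.map_map]
  exact congrArg _ (RingHom.ext_int _ _)

variable [DecidableEq (ResidueField A)]

/-- **the reduction map of the model** -/
noncomputable def redM (P : ((W.map (Int.castRingHom ℚ))⁄Qb).Point) :
    ((W.reductionMod l).toAffine⁄(ResidueField A)).Point :=
  Red.red A (WK W) (Wk W l A) P

variable [Fact l.Prime]

/-- Frobenius compatibility of the reduction relation -/
def FrobCompat (φ : Qb ≃ₐ[ℚ] Qb) : Prop :=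
  ∀ (P : ((W.map (Int.castRingHom ℚ))⁄Qb).Point)
    (Q : ((W.reductionMod l).toAffine⁄(ResidueField A)).Point),
    RedTo A (WK W) (Wk W l A) P Q →
      RedTo A (WK W) (Wk W l A) (φ • P) (frobPt (ZMod l) (ResidueField A) (W.reductionMod l) Q)

end Model

section Good

variable (W : WeierstrassCurve ℤ) {l : ℕ} (hl : l.Prime) (hgood : W.IsGoodPrimeFor l)
  (A : ValuationSubring Qb) (hA : A.LiesOverPrime l)

include hl hgood hA in
theorem hΔ : IsUnit (WA W A).Δ := isUnit_Δ_of_good A W hl hgood hA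

include hA in
theorem valuation_natCast {m : ℕ} (hm : m.Coprime l) : A.valuation ((m : ℕ) : Qb) = 1 := by
  have hc : IsCoprime (m : ℤ) (l : ℤ) := by
    rw [Int.isCoprime_iff_gcd_eq_one, Int.gcd_natCast_natCast]
    exact hm
  have h1 := isUnit_intCast_of_isCoprime A hA hc
  have h2 := (A.valuation_eq_one_iff _).mp h1
  simpa using h2

variable [Algebra (ZMod l) (ResidueField A)] [DecidableEq (ResidueField A)]

section Basic

variable {m : ℕ} (hm : m.Coprime l)

include hl hgood hA hm

theorem redM_zero : redM W l A 0 = 0 := Red.red_zero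

theorem redTo_redM {P : ((W.map (Int.castRingHom ℚ))⁄Qb).Point} (hP0 : P ≠ 0) (hP : m • P = 0) :
    RedTo A (WK W) (Wk W l A) P (redM W l A P) :=
  Red.redTo_red (hK W A) (hk W l A) (hΔ W hl hgood A hA) (valuation_natCast A hA hm) hP0 hP

theorem redM_eq_zero_iff {P : ((W.map (Int.castRingHom ℚ))⁄Qb).Point} (hP : m • P = 0) :
    redM W l A P = 0 ↔ P = 0 :=
  Red.red_eq_zero_iff (hK W A) (hk W l A) (hΔ W hl hgood A hA) (valuation_natCast A hA hm) hP

theorem redM_inj {P Q : ((W.map (Int.castRingHom ℚ))⁄Qb).Point} (hP : m • P = 0)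
    (hQ : m • Q = 0) (h : redM W l A P = redM W l A Q) : P = Q :=
  Red.red_inj (hK W A) (hk W l A) (hΔ W hl hgood A hA) (valuation_natCast A hA hm) hP hQ h

theorem redM_add {P Q : ((W.map (Int.castRingHom ℚ))⁄Qb).Point} (hP : m • P = 0)
    (hQ : m • Q = 0) : redM W l A (P + Q) = redM W l A P + redM W l A Q :=
  Red.red_add (hK W A) (hk W l A) (hΔ W hl hgood A hA) (valuation_natCast A hA hm) hP hQ

theorem nsmul_redM {P : ((W.map (Int.castRingHom ℚ))⁄Qb).Point} (hP : m • P = 0) :
    m • redM W l A P = 0 :=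
  Red.nsmul_red (hK W A) (hk W l A) (hΔ W hl hgood A hA) (valuation_natCast A hA hm) hP

theorem redM_zsmul {P : ((W.map (Int.castRingHom ℚ))⁄Qb).Point} (hP : m • P = 0) (n : ℤ) :
    redM W l A (n • P) = n • redM W l A P :=
  Red.red_zsmul (hK W A) (hk W l A) (hΔ W hl hgood A hA) (valuation_natCast A hA hm) hP n

theorem redM_nsmul {P : ((W.map (Int.castRingHom ℚ))⁄Qb).Point} (hP : m • P = 0) (n : ℕ) :
    redM W l A (n • P) = n • redM W l A P :=
  Red.red_nsmul (hK W A) (hk W l A) (hΔ W hl hgood A hA) (valuation_natCast A hA hm) hP n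

theorem addOrderOf_redM {P : ((W.map (Int.castRingHom ℚ))⁄Qb).Point} (hP : m • P = 0) :
    addOrderOf (redM W l A P) = addOrderOf P :=
  Red.addOrderOf_red (hK W A) (hk W l A) (hΔ W hl hgood A hA) (valuation_natCast A hA hm) hP

theorem exists_redM_eq {Q : ((W.reductionMod l).toAffine⁄(ResidueField A)).Point}
    (hQ : m • Q = 0) :
    ∃ P : ((W.map (Int.castRingHom ℚ))⁄Qb).Point, m • P = 0 ∧ redM W l A P = Q :=
  Red.exists_red_eq (hK W A) (hk W l A) (hΔ W hl hgood A hA) (valuation_natCast A hA hm)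
    (rootLift_of_isAlgClosed A) hQ

end Basic

/-! ### Frobenius -/

section Frob

variable [Fact l.Prime] (φ : Qb ≃ₐ[ℚ] Qb) (hφ : FrobCompat W l A φ) {m : ℕ} (hm : m.Coprime l)

omit [DecidableEq Qb] in
theorem nsmul_smul_eq_zero [DecidableEq Qb] {P : ((W.map (Int.castRingHom ℚ))⁄Qb).Point}
    (hP : m • P = 0) : m • (φ • P) = 0 := by
  have h1 : φ • P = Point.map φ.toAlgHom P := rfl
  rw [h1, ← map_nsmul, hP, map_zero]

include hl hgood hA hφ hm

/-- the reduction intertwines `φ` and the Frobenius endomorphism on prime-to-`l` torsion -/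
theorem redM_frob {P : ((W.map (Int.castRingHom ℚ))⁄Qb).Point} (hP : m • P = 0) :
    redM W l A (φ • P) = frobPt (ZMod l) (ResidueField A) (W.reductionMod l) (redM W l A P) := by
  by_cases hP0 : P = 0
  · subst hP0
    have h0 : φ • (0 : ((W.map (Int.castRingHom ℚ))⁄Qb).Point) = 0 := rfl
    rw [h0, redM_zero W hl hgood A hA hm, map_zero]
  · exact Red.red_eq_of_redTo (hφ P _ (redTo_redM W hl hgood A hA hm hP0 hP))

theorem redM_fixed_iff {P : ((W.map (Int.castRingHom ℚ))⁄Qb).Point} (hP : m • P = 0) :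
    φ • P = P ↔
      frobPt (ZMod l) (ResidueField A) (W.reductionMod l) (redM W l A P) = redM W l A P := by
  rw [← redM_frob W hl hgood A hA φ hφ hm hP]
  constructor
  · intro h
    rw [h]
  · intro h
    exact redM_inj W hl hgood A hA hm (nsmul_smul_eq_zero W φ hP) hP h

theorem redM_frob_frob_iff {P : ((W.map (Int.castRingHom ℚ))⁄Qb).Point} (hP : m • P = 0) :
    φ • φ • P = P ↔
      frobPt (ZMod l) (ResidueField A) (W.reductionMod l)
        (frobPt (ZMod l) (ResidueField A) (W.reductionMod l) (redM W l A P)) = redM W l A P := by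
  have hφP := nsmul_smul_eq_zero W φ hP
  rw [← redM_frob W hl hgood A hA φ hφ hm hP, ← redM_frob W hl hgood A hA φ hφ hm hφP]
  constructor
  · intro h
    rw [h]
  · intro h
    exact redM_inj W hl hgood A hA hm (nsmul_smul_eq_zero W φ hφP) hP h

/-- **Transport of the eigen-equation** between `E(ℚ̄)[m]` and `Ẽ(k_A)[m]`. -/
theorem exists_eigen_iff_residue (n : ℤ) :
    (∃ P : ((W.map (Int.castRingHom ℚ))⁄Qb).Point, P ≠ 0 ∧ m • P = 0 ∧ φ • P = n • P) ↔
    (∃ Q : ((W.reductionMod l).toAffine⁄(ResidueField A)).Point, Q ≠ 0 ∧ m • Q = 0 ∧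
      frobPt (ZMod l) (ResidueField A) (W.reductionMod l) Q = n • Q) := by
  constructor
  · rintro ⟨P, hP0, hP, hPn⟩
    refine ⟨redM W l A P, ?_, nsmul_redM W hl hgood A hA hm hP, ?_⟩
    · intro h
      exact hP0 ((redM_eq_zero_iff W hl hgood A hA hm hP).mp h)
    · rw [← redM_frob W hl hgood A hA φ hφ hm hP, hPn, redM_zsmul W hl hgood A hA hm hP]
  · rintro ⟨Q, hQ0, hQ, hQn⟩
    obtain ⟨P, hP, rfl⟩ := exists_redM_eq W hl hgood A hA hm hQ
    refine ⟨P, ?_, hP, ?_⟩
    · rintro rfl
      exact hQ0 (redM_zero W hl hgood A hA hm)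
    · have hnP : m • (n • P) = 0 := by rw [smul_comm, hP, zsmul_zero]
      apply redM_inj W hl hgood A hA hm (nsmul_smul_eq_zero W φ hP) hnP
      rw [redM_frob W hl hgood A hA φ hφ hm hP, hQn, redM_zsmul W hl hgood A hA hm hP]

end Frob

end Good

end Fermat.Agent.EC.Good.Eigen
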