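import Mathlib
import Fermat.Agent.LR.RedFrobCount
import Fermat.Agent.EC.Tor.Main

/-!
# Program E (S58), node (GOOD), finite-field side (helper4)

`F` a finite field with `q` elements, `k ⊇ F` a field, `W` a Weierstrass curve over `F`,
`frobPt F k W` the `q`-Frobenius on the `k`-points (`LR/RedFrobCount`), `fixedSub F k W` its fixed
points.

* `natCard_fixedSub_eq` : `#Fix(Frob) = #W(F)`; `natCard_fixedSub_zmod` : for the reduction of an
  integral model at `l`, `#Fix(Frob) = l + 1 - a_l`;
* `fixedSqSub`, `card_fixedSqSub_le`, `card_frobSq_fixed_le` : at most `2 q² + 1` points are fixed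
  by `Frob²`; `addOrderOf_le_of_frobSq_fixed`;
* `exists_addOrderOf_eq_pow_of_dvd_card` (abstract): in a finite commutative group of "rank `≤ 2`
  at `p`" with `p ^ n ∣ #A` there is an element of exact order `p ^ ((n + 1) / 2)`;
* `exists_addOrderOf_pow_of_dvd` : for `k` algebraically closed, `lam` a prime invertible in `F` and
  `lam ^ n ∣ #Fix(Frob)`, a Frobenius-fixed point of exact order `lam ^ ((n + 1) / 2)`;
* the forms for `W.reductionMod l`, `W : WeierstrassCurve ℤ` : `dvd_of_fixed_zmod`,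
  `exists_fixed_of_dvd_zmod`, `le_of_frobSq_fixed_zmod`.
-/

set_option autoImplicit false
set_option linter.unusedSectionVars false

noncomputable section

open WeierstrassCurve WeierstrassCurve.Affine Polynomial
open Fermat.Agent.LR.RedFrob

namespace Fermat.Agent.EC.Good.FinSide

/-! ### An abstract exponent argument -/

/-- In a finite commutative group `A` in which every subgroup killed by `p ^ e` has at most
`p ^ (2 e)` elements ("rank `≤ 2` at `p`"), `p ^ n ∣ #A` forces an element of exact order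
`p ^ ((n + 1) / 2)`. -/
theorem exists_addOrderOf_eq_pow_of_dvd_card {A : Type*} [AddCommGroup A] [Finite A] {p : ℕ}
    (hp : p.Prime) {n : ℕ} (hdvd : p ^ n ∣ Nat.card A)
    (hrank : ∀ (e : ℕ) (H : AddSubgroup A), (∀ x ∈ H, p ^ e • x = 0) →
      Nat.card H ≤ p ^ (2 * e)) :
    ∃ x : A, addOrderOf x = p ^ ((n + 1) / 2) := by
  have : Fact p.Prime := ⟨hp⟩
  rcases Nat.eq_zero_or_pos n with rfl | hn
  · exact ⟨0, by simp⟩
  set e := (n + 1) / 2 with he
  have he1 : 1 ≤ e := by omega
  have hlt : 2 * (e - 1) < n := by omega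
  by_contra hcon
  push Not at hcon
  -- a subgroup of order `p ^ n`
  have hdvd' : p ^ n ∣ Nat.card (Multiplicative A) := hdvd
  obtain ⟨K, hK⟩ := Sylow.exists_subgroup_card_pow_prime p hdvd'
  set H : AddSubgroup A := Subgroup.toAddSubgroup' K with hH
  have hHK : Nat.card H = p ^ n := by
    rw [← hK]
    exact Nat.card_congr (Equiv.refl _)
  -- every element of `H` is killed by `p ^ (e - 1)`
  have hkill : ∀ x ∈ H, p ^ (e - 1) • x = 0 := by
    intro x hx
    have h1 : addOrderOf x ∣ p ^ n := by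
      rw [← hHK]
      exact AddSubgroup.addOrderOf_dvd_natCard H hx
    obtain ⟨j, hjn, hj⟩ := (Nat.dvd_prime_pow hp).mp h1
    by_cases hje : e ≤ j
    · exfalso
      apply hcon (p ^ (j - e) • x)
      rw [addOrderOf_nsmul, hj]
      have hg : Nat.gcd (p ^ j) (p ^ (j - e)) = p ^ (j - e) :=
        Nat.gcd_eq_right (pow_dvd_pow p (by omega))
      rw [hg]
      have : p ^ j = p ^ e * p ^ (j - e) := by rw [← pow_add]; congr 1; omega
      rw [this, Nat.mul_div_cancel _ (pow_pos hp.pos _)]
    · have hj' : j ≤ e - 1 := by omega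
      have : p ^ (e - 1) = p ^ (e - 1 - j) * p ^ j := by rw [← pow_add]; congr 1; omega
      rw [this, mul_smul, ← hj, addOrderOf_nsmul_eq_zero, smul_zero]
  have hle := hrank (e - 1) H hkill
  rw [hHK] at hle
  have := (Nat.pow_le_pow_iff_right hp.one_lt).mp hle
  omega

/-- the fibre of the `x`-coordinate has at most two elements -/
theorem card_yFib_le {k : Type*} [Field k] [DecidableEq k] (Wk : Affine k) (x : k) :
    (yFib Wk x).card ≤ 2 := by
  unfold yFib
  split_ifs with h
  · exact Finset.card_le_two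
  · simp

section Generic

variable (F k : Type*) [Field F] [Fintype F] [Field k] [Algebra F k] [DecidableEq k]
  (W : WeierstrassCurve F)

/-- **(a)** the Frobenius-fixed points are as many as the rational points. -/
theorem natCard_fixedSub_eq (hΔ : (W.map (algebraMap F k)).Δ ≠ 0) :
    Nat.card (fixedSub F k W) = Nat.card W.toAffine.Point := by
  rw [natCard_fixedSub F k W hΔ, natCard_point_eq F k W hΔ]

theorem finite_fixedSub (hΔ : (W.map (algebraMap F k)).Δ ≠ 0) : Finite (fixedSub F k W) :=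
  Nat.finite_of_card_ne_zero (by rw [natCard_fixedSub F k W hΔ]; exact Nat.succ_ne_zero _)

/-- The points fixed by the square of the Frobenius. -/
def fixedSqSub : AddSubgroup (W.toAffine⁄k).Point :=
  ((frobPt F k W).comp (frobPt F k W) - AddMonoidHom.id _).ker

theorem mem_fixedSqSub {Q : (W.toAffine⁄k).Point} :
    Q ∈ fixedSqSub F k W ↔ frobPt F k W (frobPt F k W Q) = Q := by
  rw [fixedSqSub, AddMonoidHom.mem_ker, AddMonoidHom.sub_apply, AddMonoidHom.id_apply,
    sub_eq_zero, AddMonoidHom.comp_apply]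

/-- the `x`-coordinates fixed by `Frob²` -/
def sqX : Finset k := (X ^ (Fintype.card F ^ 2) - X : k[X]).roots.toFinset

theorem card_sqX_le : (sqX F k).card ≤ Fintype.card F ^ 2 := by
  have hq1 : 1 < Fintype.card F := Fintype.one_lt_card
  have hq2 : 1 < Fintype.card F ^ 2 := by nlinarith
  calc (sqX F k).card ≤ Multiset.card (X ^ (Fintype.card F ^ 2) - X : k[X]).roots :=
        Multiset.toFinset_card_le _
    _ ≤ (X ^ (Fintype.card F ^ 2) - X : k[X]).natDegree := Polynomial.card_roots' _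
    _ = Fintype.card F ^ 2 := FiniteField.X_pow_card_sub_X_natDegree_eq k hq2

theorem mem_sqX {x : k} (hx : (x ^ Fintype.card F) ^ Fintype.card F = x) : x ∈ sqX F k := by
  have hq1 : 1 < Fintype.card F := Fintype.one_lt_card
  have hq2 : 1 < Fintype.card F ^ 2 := by nlinarith
  rw [sqX, Multiset.mem_toFinset,
    Polynomial.mem_roots (FiniteField.X_pow_card_sub_X_ne_zero k hq2), Polynomial.IsRoot.def]
  simp only [Polynomial.eval_sub, Polynomial.eval_pow, Polynomial.eval_X]
  rw [sq, pow_mul, hx, sub_self]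

/-- the pairs over `sqX` -/
def sqPairs : Finset (k × k) :=
  (sqX F k).biUnion fun x => (yFib (W.map (algebraMap F k)).toAffine x).image (Prod.mk x)

theorem card_sqPairs_le : (sqPairs F k W).card ≤ 2 * Fintype.card F ^ 2 := by
  rw [sqPairs, card_biUnion_image_mk]
  calc ∑ x ∈ sqX F k, (yFib (W.map (algebraMap F k)).toAffine x).card
      ≤ ∑ _x ∈ sqX F k, 2 := Finset.sum_le_sum fun x _ => card_yFib_le _ x
    _ = (sqX F k).card * 2 := by rw [Finset.sum_const, smul_eq_mul]
    _ ≤ 2 * Fintype.card F ^ 2 := by have := card_sqX_le F k; omega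

theorem xyOpt_image_fixedSqSub_subset :
    xyOpt '' (fixedSqSub F k W : Set (W.toAffine⁄k).Point) ⊆
      insert none (some '' (sqPairs F k W : Set (k × k))) := by
  rintro o ⟨Q, hQ, rfl⟩
  rcases Q with _ | ⟨x, y, h⟩
  · exact Set.mem_insert _ _
  · refine Set.mem_insert_of_mem _ ⟨(x, y), ?_, rfl⟩
    have hQ' := (mem_fixedSqSub F k W).mp hQ
    rw [frobPt, Point.map_some, Point.map_some, Point.some.injEq] at hQ'
    have hx : (x ^ Fintype.card F) ^ Fintype.card F = x := hQ'.1
    rw [Finset.mem_coe, sqPairs, Finset.mem_biUnion]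
    exact ⟨x, mem_sqX F k hx, Finset.mem_image.mpr ⟨y, (mem_yFib _).mpr h.1, rfl⟩⟩

/-- **(b)** at most `2 q² + 1` points are fixed by `Frob²`. -/
theorem card_fixedSqSub_le :
    Nat.card (fixedSqSub F k W) ≤ 2 * Fintype.card F ^ 2 + 1 := by
  have h1 : Nat.card (fixedSqSub F k W) =
      (xyOpt '' (fixedSqSub F k W : Set (W.toAffine⁄k).Point)).ncard :=
    natCard_eq_ncard_xyOpt _
  rw [h1]
  calc (xyOpt '' (fixedSqSub F k W : Set (W.toAffine⁄k).Point)).ncard
      ≤ (insert none (some '' (sqPairs F k W : Set (k × k))) : Set (Option (k × k))).ncard :=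
        Set.ncard_le_ncard (xyOpt_image_fixedSqSub_subset F k W)
          ((Set.Finite.image _ (sqPairs F k W).finite_toSet).insert _)
    _ = (sqPairs F k W).card + 1 := ncard_insert_none_image_some _
    _ ≤ 2 * Fintype.card F ^ 2 + 1 := by have := card_sqPairs_le F k W; omega

theorem finite_fixedSqSub : Finite (fixedSqSub F k W) := by
  have hfin : (xyOpt '' (fixedSqSub F k W : Set (W.toAffine⁄k).Point)).Finite :=
    ((Set.Finite.image _ (sqPairs F k W).finite_toSet).insert _).subset
      (xyOpt_image_fixedSqSub_subset F k W)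
  exact (Set.Finite.of_finite_image hfin xyOpt_injective.injOn).to_subtype

/-- **(b)**, subtype form. -/
theorem card_frobSq_fixed_le :
    Nat.card {Q : (W.toAffine⁄k).Point // frobPt F k W (frobPt F k W Q) = Q} ≤
      2 * Fintype.card F ^ 2 + 1 := by
  have h : Nat.card {Q : (W.toAffine⁄k).Point // frobPt F k W (frobPt F k W Q) = Q} =
      Nat.card (fixedSqSub F k W) :=
    Nat.card_congr (Equiv.subtypeEquivRight fun Q => (mem_fixedSqSub F k W).symm)
  rw [h]
  exact card_fixedSqSub_le F k W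

/-- a point fixed by `Frob²` has order at most `2 q² + 1` -/
theorem addOrderOf_le_of_frobSq_fixed {Q : (W.toAffine⁄k).Point}
    (hQ : frobPt F k W (frobPt F k W Q) = Q) :
    addOrderOf Q ≤ 2 * Fintype.card F ^ 2 + 1 := by
  have := finite_fixedSqSub F k W
  have hmem : Q ∈ fixedSqSub F k W := (mem_fixedSqSub F k W).mpr hQ
  have hpos : 0 < Nat.card (fixedSqSub F k W) := Nat.card_pos
  exact (Nat.le_of_dvd hpos (AddSubgroup.addOrderOf_dvd_natCard _ hmem)).trans
    (card_fixedSqSub_le F k W)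

/-- **(c)** `lam ^ n ∣ #Fix(Frob)` forces a Frobenius-fixed point of exact order
`lam ^ ((n + 1) / 2)` (`lam` a prime invertible in `F`). -/
theorem exists_addOrderOf_pow_of_dvd [IsAlgClosed k] (hΔ : (W.map (algebraMap F k)).Δ ≠ 0)
    {lam : ℕ} (hlam : lam.Prime) (hlamF : (lam : F) ≠ 0) (n : ℕ)
    (h : lam ^ n ∣ Nat.card (fixedSub F k W)) :
    ∃ Q ∈ fixedSub F k W, addOrderOf Q = lam ^ ((n + 1) / 2) := by
  have hfin := finite_fixedSub F k W hΔ
  have hlamk : (lam : k) ≠ 0 := by
    have h1 : algebraMap F k (lam : F) ≠ 0 := (map_ne_zero (algebraMap F k)).mpr hlamF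
    rwa [map_natCast] at h1
  have hrank : ∀ (e : ℕ) (H : AddSubgroup (fixedSub F k W)), (∀ x ∈ H, lam ^ e • x = 0) →
      Nat.card H ≤ lam ^ (2 * e) := by
    intro e H hH
    have hcard : Nat.card (H.map (fixedSub F k W).subtype) = Nat.card H :=
      Nat.card_congr (AddSubgroup.equivMapOfInjective H (fixedSub F k W).subtype
        (AddSubgroup.subtype_injective _)).symm.toEquiv
    rw [← hcard, pow_mul']
    have hne : ((lam ^ e : ℕ) : k) ≠ 0 := by
      push_cast
      exact pow_ne_zero _ hlamk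
    refine Fermat.Agent.EC.Tor.Main.card_le_of_forall_nsmul (W.toAffine⁄k) hΔ hne _ ?_
    rintro P ⟨x, hx, rfl⟩
    have := hH x hx
    rw [AddSubgroup.subtype_apply, ← AddSubgroup.coe_nsmul, this, AddSubgroup.coe_zero]
  obtain ⟨x, hx⟩ := exists_addOrderOf_eq_pow_of_dvd_card (A := fixedSub F k W) hlam h hrank
  exact ⟨x.1, x.2, by rw [← hx]; exact (AddSubgroup.addOrderOf_coe x)⟩

end Generic

/-! ### The reduction of an integral model -/

section Model

variable (W : WeierstrassCurve ℤ) {l : ℕ} [Fact l.Prime]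
  (k : Type*) [Field k] [Algebra (ZMod l) k] [DecidableEq k]

/-- **(a)** for the reduction at `l` : `#Fix(Frob) = l + 1 - a_l`. -/
theorem natCard_fixedSub_zmod
    (hΔ : ((W.reductionMod l).map (algebraMap (ZMod l) k)).Δ ≠ 0) :
    (Nat.card (fixedSub (ZMod l) k (W.reductionMod l)) : ℤ) = (l : ℤ) + 1 - W.apOfModel l := by
  rw [natCard_fixedSub_eq (ZMod l) k (W.reductionMod l) hΔ, apOfModel_eq]
  ring

/-- a Frobenius-fixed point of order `m` : `m ∣ l + 1 - a_l` -/
theorem dvd_of_fixed_zmod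
    (hΔ : ((W.reductionMod l).map (algebraMap (ZMod l) k)).Δ ≠ 0)
    {Q : ((W.reductionMod l).toAffine⁄k).Point}
    (hQ : frobPt (ZMod l) k (W.reductionMod l) Q = Q) :
    ((addOrderOf Q : ℕ) : ℤ) ∣ (l : ℤ) + 1 - W.apOfModel l := by
  rw [← natCard_fixedSub_zmod W k hΔ, Int.natCast_dvd_natCast]
  exact AddSubgroup.addOrderOf_dvd_natCard _ ((mem_fixedSub _ _ _).mpr hQ)

/-- `lam ^ n ∣ l + 1 - a_l` : a Frobenius-fixed point of exact order `lam ^ ((n + 1) / 2)` -/
theorem exists_fixed_of_dvd_zmod [IsAlgClosed k]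
    (hΔ : ((W.reductionMod l).map (algebraMap (ZMod l) k)).Δ ≠ 0)
    {lam : ℕ} (hlam : lam.Prime) (hne : lam ≠ l) (n : ℕ)
    (hdvd : ((lam ^ n : ℕ) : ℤ) ∣ (l : ℤ) + 1 - W.apOfModel l) :
    ∃ Q : ((W.reductionMod l).toAffine⁄k).Point,
      frobPt (ZMod l) k (W.reductionMod l) Q = Q ∧ addOrderOf Q = lam ^ ((n + 1) / 2) := by
  have hl : l.Prime := Fact.out
  have hlamF : ((lam : ℕ) : ZMod l) ≠ 0 := by
    rw [Ne, ZMod.natCast_eq_zero_iff]
    exact fun h => hne ((Nat.prime_dvd_prime_iff_eq hl hlam).mp h).symm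
  rw [← natCard_fixedSub_zmod W k hΔ, Int.natCast_dvd_natCast] at hdvd
  obtain ⟨Q, hQ, hord⟩ := exists_addOrderOf_pow_of_dvd (ZMod l) k (W.reductionMod l) hΔ hlam
    hlamF n hdvd
  exact ⟨Q, (mem_fixedSub _ _ _).mp hQ, hord⟩

/-- a point fixed by `Frob²` has order at most `2 l² + 1` -/
theorem le_of_frobSq_fixed_zmod {Q : ((W.reductionMod l).toAffine⁄k).Point}
    (hQ : frobPt (ZMod l) k (W.reductionMod l) (frobPt (ZMod l) k (W.reductionMod l) Q) = Q) :
    addOrderOf Q ≤ 2 * l ^ 2 + 1 := by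
  have h := addOrderOf_le_of_frobSq_fixed (ZMod l) k (W.reductionMod l) hQ
  rwa [ZMod.card l] at h

end Model

end Fermat.Agent.EC.Good.FinSide
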