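import Fermat.Agent.LR.RedFrobPlug
import Fermat.Agent.LR.RedFrobCount
import Fermat.Agent.S05.Frey
import Fermat.Agent.EC.Good.RedAdd

/-!
# EC / GOOD (second seat, contract #1393): the `ℤ`-model vocabulary, Frobenius and inertia

`W : WeierstrassCurve ℤ`, `l` a prime, `A` a valuation subring of `ℚ̄` over `l`,
`k := ResidueField A` with `[CharP k l]` (supplied by the caller:
`haveI := LR.RedFrob.charP_residueField A hl hA`) and the `ZMod l`-algebra structure
`ZMod.algebra k l`.

* `WA`, `WK`, `Wk` : the model over `A`, the generic fibre in the Prelude's shape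
  `(W.map (Int.castRingHom ℚ))⁄ℚ̄`, the special fibre in the shape of `LR/RedFrobCount`
  `(W.reductionMod l).toAffine⁄k`;
* `hK`, `hk`, `hΔ` : the three curve (in)equalities consumed by `LR/RedFrobVal` and `EC/Good/RedAdd`;
* `redTo_frob` : reduction intertwines a Frobenius element `φ` at `A` with `frobPt`;
* `fix_of_inertia` (G-vi) : inertia at `A` fixes the torsion prime to `l` (good reduction).
-/

set_option autoImplicit false

open WeierstrassCurve WeierstrassCurve.Affine IsLocalRing Polynomial
open scoped WeierstrassCurve.Affine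

namespace Fermat.Agent.EC.Good.FrobTo

open Fermat.Agent.LR.RedFrob

local notation "Qb" => AlgebraicClosure ℚ

noncomputable section

/-! ### The three curves and their relations -/

section Curves

variable (W : WeierstrassCurve ℤ) (A : ValuationSubring Qb)

/-- the model over `A`. -/
abbrev WA : WeierstrassCurve A := W.map (Int.castRingHom A)

/-- the generic fibre, in the shape of the Prelude's Galois action. -/
abbrev WK : WeierstrassCurve Qb := (W.map (Int.castRingHom ℚ))⁄Qb

theorem hK : WK W = (WA W A).map (algebraMap A Qb) := baseChange_eq_map W A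

theorem hΔ {l : ℕ} (hl : l.Prime) (hgood : W.IsGoodPrimeFor l) (hA : A.LiesOverPrime l) :
    IsUnit (WA W A).Δ := isUnit_Δ_of_good A W hl hgood hA

/-- `m` prime to `l` is a unit of `A`. -/
theorem valuation_natCast_eq_one {l : ℕ} (hA : A.LiesOverPrime l) {m : ℕ} (hm : m.Coprime l) :
    A.valuation ((m : ℕ) : Qb) = 1 := by
  have hc : IsCoprime (m : ℤ) (l : ℤ) := by
    rw [Int.isCoprime_iff_gcd_eq_one, Int.gcd_natCast_natCast]
    exact hm
  have hu := isUnit_intCast_of_isCoprime A hA hc
  have := (A.valuation_eq_one_iff _).mp hu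
  simpa using this

variable (l : ℕ) [Fact l.Prime] [CharP (ResidueField A) l]

/-- the special fibre, in the shape of `LR/RedFrobCount`. -/
abbrev Wk : WeierstrassCurve (ResidueField A) :=
  letI := ZMod.algebra (ResidueField A) l
  (W.reductionMod l).toAffine⁄(ResidueField A)

omit [Fact l.Prime] in
theorem hk : Wk W A l = (WA W A).map (residue A) := by
  let _ := ZMod.algebra (ResidueField A) l
  exact (reductionMod_map_eq W (ResidueField A)).trans (specialFibre_eq W A)

end Curves

/-! ### Frobenius -/

section Frob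

variable [DecidableEq Qb]
variable (W : WeierstrassCurve ℤ) (A : ValuationSubring Qb) {l : ℕ} [Fact l.Prime]
  [CharP (ResidueField A) l] [DecidableEq (ResidueField A)]

/-- the Frobenius endomorphism of the special fibre, in the vocabulary of `LR/RedFrobCount`. -/
abbrev frobk : (Wk W A l).toAffine.Point →+ (Wk W A l).toAffine.Point :=
  letI := ZMod.algebra (ResidueField A) l
  frobPt (ZMod l) (ResidueField A) (W.reductionMod l)

omit [DecidableEq Qb] in
theorem frobk_some {ξ η : ResidueField A} (h : (Wk W A l).toAffine.Nonsingular ξ η) :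
    ∃ h' : (Wk W A l).toAffine.Nonsingular (ξ ^ l) (η ^ l),
      frobk W A (l := l) (Point.some ξ η h) = Point.some (ξ ^ l) (η ^ l) h' := by
  let _ := ZMod.algebra (ResidueField A) l
  have h1 : frobk W A (l := l) (Point.some ξ η h) =
      Point.map (W' := (W.reductionMod l).toAffine)
        (FiniteField.frobeniusAlgHom (ZMod l) (ResidueField A)) (Point.some ξ η h) := rfl
  rw [h1, Point.map_some]
  have e1 : (FiniteField.frobeniusAlgHom (ZMod l) (ResidueField A)) ξ = ξ ^ l := by
    change ξ ^ Fintype.card (ZMod l) = ξ ^ l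
    rw [ZMod.card l]
  have e2 : (FiniteField.frobeniusAlgHom (ZMod l) (ResidueField A)) η = η ^ l := by
    change η ^ Fintype.card (ZMod l) = η ^ l
    rw [ZMod.card l]
  exact RedAdd.some_congr _ e1 e2

/-- **Reduction intertwines a Frobenius element at `A` with the Frobenius of the special fibre.** -/
theorem redTo_frob {φ : Qb ≃ₐ[ℚ] Qb} (hφ : A.IsFrobeniusAt φ l)
    {P : (WK W).toAffine.Point} {Q : (Wk W A l).toAffine.Point}
    (h : RedTo A (WK W) (Wk W A l) P Q) :
    RedTo A (WK W) (Wk W A l) (φ • P) (frobk W A (l := l) Q) := by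
  obtain ⟨x, y, hxy, hq, rfl, rfl⟩ := h
  have hσmem := hφ.mem_decompositionSubgroup
  set x' : A := ⟨φ (x : Qb), mem_of_mem_decomposition hσmem x.2⟩ with hx'
  set y' : A := ⟨φ (y : Qb), mem_of_mem_decomposition hσmem y.2⟩ with hy'
  have hrx : residue A x' = residue A x ^ l := residue_frobenius_apply hφ x
  have hry : residue A y' = residue A y ^ l := residue_frobenius_apply hφ y
  have hφP : φ • (Point.some _ _ hxy : (WK W).toAffine.Point) =
      Point.map φ.toAlgHom (Point.some _ _ hxy) := rfl
  obtain ⟨hq', hfrob⟩ := frobk_some W A hq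
  obtain ⟨hq'', hfrob'⟩ := RedAdd.some_congr hq' hrx.symm hry.symm
  have hxy' : (WK W).toAffine.Nonsingular (x' : Qb) (y' : Qb) :=
    ((WeierstrassCurve.Affine.baseChange_nonsingular
      (W := (W.map (Int.castRingHom ℚ)).toAffine) (f := φ.toAlgHom) φ.toAlgHom.injective
      (x : Qb) (y : Qb))).mpr hxy
  refine ⟨x', y', hxy', hq'', ?_, ?_⟩
  · rw [hφP]; rfl
  · rw [hfrob, hfrob']

end Frob

/-! ### Inertia (G-vi) -/

section Inertia

variable [DecidableEq Qb]
variable (W : WeierstrassCurve ℤ) {l : ℕ} (hl : l.Prime) (hgood : W.IsGoodPrimeFor l)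
  (A : ValuationSubring Qb) (hA : A.LiesOverPrime l)

include hl hgood hA in
/-- **G-vi.** Inertia at a place over a good prime `l` fixes the torsion prime to `l`. -/
theorem fix_of_inertia {σ : Qb ≃ₐ[ℚ] Qb} (hσ : σ ∈ A.inertiaSubgroupIn ℚ) {m : ℕ}
    (hm : m.Coprime l) {P : ((W.map (Int.castRingHom ℚ))⁄Qb).Point} (hP : m • P = 0) :
    σ • P = P := by
  obtain rfl : ‹DecidableEq Qb› = instDecEqAlgebraicClosureRat := Subsingleton.elim _ _
  have hKeq : ((W.map (Int.castRingHom ℚ))⁄Qb : WeierstrassCurve Qb) =
      (WA W A).map (algebraMap A Qb) := baseChange_eq_map W A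
  have hW : S05.IntegralCoeffs A.valuation ((W.map (Int.castRingHom ℚ)).toAffine⁄Qb) := by
    have := integralCoeffs_map A (WA W A)
    rwa [← hKeq] at this
  have hΔ1 : A.valuation ((W.map (Int.castRingHom ℚ)).toAffine⁄Qb).Δ = 1 := by
    have := valuation_Δ_map A (WA W A) (hΔ W A hl hgood hA)
    rwa [← hKeq] at this
  exact S05.galois_fix_torsion_of_good (W.map (Int.castRingHom ℚ)).toAffine A hσ hW hΔ1
    (valuation_natCast_eq_one A hA hm) hP

end Inertia

end

end Fermat.Agent.EC.Good.FrobTo
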