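import Mathlib
import Fermat.Agent.EC.Good.Eigen
import Fermat.Agent.EC.Good.FrobTo
import Fermat.Agent.EC.Good.FinSide
import Fermat.Agent.Val.ResidueFieldA

/-!
# Program E (S58), node GOOD (helper19): the consumer-facing statements G-i … G-vi

`W : WeierstrassCurve ℤ`, `l` a good prime of `W`, `A` a place of `ℚ̄` over `l`, `φ` a Frobenius
element at `A`; `E(ℚ̄) = ((W.map (Int.castRingHom ℚ))⁄ℚ̄).Point` with the Prelude's Galois action.
Contract = finding #1393 (binder map #1384).

* G-i   `dvd_of_fixed` : a `φ`-fixed point of exact order `m` prime to `l` : `m ∣ l + 1 - a_l`;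
* G-ii  `exists_fixed_of_dvd` : `lam ^ n ∣ l + 1 - a_l` (`lam ≠ l` prime) : a `φ`-fixed point of exact
  order `lam ^ ((n + 1) / 2)`;
* G-iii `le_of_frob_sq_fixed` : a `φ²`-fixed point of exact order `m` prime to `l` : `m ≤ 2 l² + 1`;
* G-iv/v `exists_eigen_iff` : `(∃ P ≠ 0, lam • P = 0 ∧ φ • P = n • P) ↔ lam ∣ n² - a_l n + l`, from
  the finite-field statement `StarAt W l A n lam` (the export (★) of the HW block at
  `F = ZMod l`, `k = k_A`); `exists_eigen_iff_residue'` is the transport alone;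
* G-vi  `fix_of_inertia` : inertia at `A` fixes the torsion prime to `l`.

Assembly of `EC/Good/{RedAdd, Red, Eigen, FrobTo, FinSide}`.
-/

set_option autoImplicit false
set_option linter.unusedSectionVars false
set_option linter.style.haveILetI false

open WeierstrassCurve WeierstrassCurve.Affine IsLocalRing Polynomial

namespace Fermat.Agent.EC.Good.Main

open Fermat.Agent.LR.RedFrob Fermat.Agent.EC.Good

local notation "Qb" => AlgebraicClosure ℚ

variable [DecidableEq Qb]

/-- **(★) at the place `A`** : the finite-field statement of the HW block for the reduction of `W`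
at `l`, over the residue field of `A` (for every `ZMod l`-algebra structure on it). -/
def StarAt (W : WeierstrassCurve ℤ) (l : ℕ) (A : ValuationSubring Qb) (n : ℤ) (lam : ℕ) : Prop :=
  ∀ [Fact l.Prime] [Algebra (ZMod l) (ResidueField A)] [DecidableEq (ResidueField A)],
    (∃ Q : ((W.reductionMod l).toAffine⁄(ResidueField A)).Point, Q ≠ 0 ∧ lam • Q = 0 ∧
      frobPt (ZMod l) (ResidueField A) (W.reductionMod l) Q = n • Q) ↔
    (lam : ℤ) ∣ n ^ 2 - W.apOfModel l * n + (l : ℤ)

variable (W : WeierstrassCurve ℤ) {l : ℕ} (hl : l.Prime) (hgood : W.IsGoodPrimeFor l)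
  (A : ValuationSubring Qb) (hA : A.LiesOverPrime l) (φ : Qb ≃ₐ[ℚ] Qb)
  (hφ : A.IsFrobeniusAt φ l)

/-! ### Plumbing -/

include hφ in
/-- the Frobenius compatibility of `EC/Good/Eigen`, from `EC/Good/FrobTo` -/
theorem frobCompat [Fact l.Prime] [CharP (ResidueField A) l] [DecidableEq (ResidueField A)] :
    letI := ZMod.algebra (ResidueField A) l
    Eigen.FrobCompat W l A φ := by
  letI := ZMod.algebra (ResidueField A) l
  intro P Q h
  exact FrobTo.redTo_frob W A hφ h

include hl hgood hA in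
omit [DecidableEq Qb] in
/-- the special fibre is smooth (for every `ZMod l`-algebra structure on the residue field) -/
theorem Δ_ne_zero [Algebra (ZMod l) (ResidueField A)] :
    ((W.reductionMod l).map (algebraMap (ZMod l) (ResidueField A))).Δ ≠ 0 := by
  have h := Δ_map_residue_ne_zero A (Eigen.WA W A) (Eigen.hΔ W hl hgood A hA)
  rw [← Eigen.hk W l A] at h
  exact h

omit [DecidableEq Qb] in
theorem coprime_pow {lam : ℕ} (hlam : lam.Prime) (hne : lam ≠ l) (hl : l.Prime) (e : ℕ) :
    (lam ^ e).Coprime l :=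
  Nat.Coprime.pow_left e ((Nat.coprime_primes hlam hl).mpr hne)

/-! ### G-i, G-ii, G-iii -/

include hl hgood hA hφ in
/-- **G-i.** -/
theorem dvd_of_fixed {m : ℕ} (hm : m.Coprime l) {P : ((W.map (Int.castRingHom ℚ))⁄Qb).Point}
    (hP : addOrderOf P = m) (hfix : φ • P = P) : (m : ℤ) ∣ (l : ℤ) + 1 - W.apOfModel l := by
  classical
  haveI : Fact l.Prime := ⟨hl⟩
  haveI := charP_residueField A hl hA
  letI := ZMod.algebra (ResidueField A) l
  have hmP : m • P = 0 := by rw [← hP]; exact addOrderOf_nsmul_eq_zero P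
  have hc := frobCompat W A φ hφ
  have hQ := (Eigen.redM_fixed_iff W hl hgood A hA φ hc hm hmP).mp hfix
  have h := FinSide.dvd_of_fixed_zmod W (ResidueField A) (Δ_ne_zero W hl hgood A hA) hQ
  rwa [Eigen.addOrderOf_redM W hl hgood A hA hm hmP, hP] at h

include hl hgood hA hφ in
/-- **G-ii.** -/
theorem exists_fixed_of_dvd {lam : ℕ} (hlam : lam.Prime) (hne : lam ≠ l) (n : ℕ)
    (hdvd : ((lam ^ n : ℕ) : ℤ) ∣ (l : ℤ) + 1 - W.apOfModel l) :
    ∃ P : ((W.map (Int.castRingHom ℚ))⁄Qb).Point,
      addOrderOf P = lam ^ ((n + 1) / 2) ∧ φ • P = P := by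
  classical
  haveI : Fact l.Prime := ⟨hl⟩
  haveI := charP_residueField A hl hA
  letI := ZMod.algebra (ResidueField A) l
  haveI : IsAlgClosed (ResidueField A) := Fermat.Agent.Val.residueField_isAlgClosed A
  have hm : (lam ^ ((n + 1) / 2)).Coprime l := coprime_pow hlam hne hl _
  have hc := frobCompat W A φ hφ
  obtain ⟨Q, hQfix, hQord⟩ := FinSide.exists_fixed_of_dvd_zmod W (ResidueField A)
    (Δ_ne_zero W hl hgood A hA) hlam hne n hdvd
  have hmQ : lam ^ ((n + 1) / 2) • Q = 0 := by rw [← hQord]; exact addOrderOf_nsmul_eq_zero Q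
  obtain ⟨P, hmP, hPQ⟩ := Eigen.exists_redM_eq W hl hgood A hA hm hmQ
  refine ⟨P, ?_, ?_⟩
  · rw [← Eigen.addOrderOf_redM W hl hgood A hA hm hmP, hPQ, hQord]
  · rw [Eigen.redM_fixed_iff W hl hgood A hA φ hc hm hmP, hPQ]
    exact hQfix

include hl hgood hA hφ in
/-- **G-iii.** -/
theorem le_of_frob_sq_fixed {m : ℕ} (hm : m.Coprime l)
    {P : ((W.map (Int.castRingHom ℚ))⁄Qb).Point} (hP : addOrderOf P = m)
    (hfix : φ • φ • P = P) : m ≤ 2 * l ^ 2 + 1 := by
  classical
  haveI : Fact l.Prime := ⟨hl⟩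
  haveI := charP_residueField A hl hA
  letI := ZMod.algebra (ResidueField A) l
  have hmP : m • P = 0 := by rw [← hP]; exact addOrderOf_nsmul_eq_zero P
  have hc := frobCompat W A φ hφ
  have hQ := (Eigen.redM_frob_frob_iff W hl hgood A hA φ hc hm hmP).mp hfix
  have h := FinSide.le_of_frobSq_fixed_zmod W (ResidueField A) hQ
  rwa [Eigen.addOrderOf_redM W hl hgood A hA hm hmP, hP] at h

/-! ### G-iv / G-v -/

include hl hgood hA hφ in
/-- the transport of the eigen-equation to the residue field (no HW input), at the canonical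
`ZMod l`-algebra structure of the residue field -/
theorem exists_eigen_iff_residue' {m : ℕ} (hm : m.Coprime l) (n : ℤ) :
    haveI : Fact l.Prime := ⟨hl⟩
    haveI := charP_residueField A hl hA
    letI := ZMod.algebra (ResidueField A) l
    letI : DecidableEq (ResidueField A) := Classical.decEq _
    ((∃ P : ((W.map (Int.castRingHom ℚ))⁄Qb).Point, P ≠ 0 ∧ m • P = 0 ∧ φ • P = n • P) ↔
    (∃ Q : ((W.reductionMod l).toAffine⁄(ResidueField A)).Point, Q ≠ 0 ∧ m • Q = 0 ∧
      frobPt (ZMod l) (ResidueField A) (W.reductionMod l) Q = n • Q)) := by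
  haveI : Fact l.Prime := ⟨hl⟩
  haveI := charP_residueField A hl hA
  letI := ZMod.algebra (ResidueField A) l
  letI : DecidableEq (ResidueField A) := Classical.decEq _
  exact Eigen.exists_eigen_iff_residue W hl hgood A hA φ (frobCompat W A φ hφ) hm n

include hl hgood hA hφ in
/-- **G-iv / G-v**, from the finite-field statement (★). -/
theorem exists_eigen_iff {lam : ℕ} (hlam : lam.Prime) (hne : lam ≠ l) (n : ℤ)
    (hstar : StarAt W l A n lam) :
    (∃ P : ((W.map (Int.castRingHom ℚ))⁄Qb).Point, P ≠ 0 ∧ lam • P = 0 ∧ φ • P = n • P) ↔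
      (lam : ℤ) ∣ n ^ 2 - W.apOfModel l * n + (l : ℤ) := by
  haveI : Fact l.Prime := ⟨hl⟩
  haveI := charP_residueField A hl hA
  letI := ZMod.algebra (ResidueField A) l
  letI : DecidableEq (ResidueField A) := Classical.decEq _
  have hm : lam.Coprime l := (Nat.coprime_primes hlam hl).mpr hne
  rw [Eigen.exists_eigen_iff_residue W hl hgood A hA φ (frobCompat W A φ hφ) hm n]
  exact hstar

/-! ### G-vi -/

include hl hgood hA in
/-- **G-vi.** -/
theorem fix_of_inertia {σ : Qb ≃ₐ[ℚ] Qb} (hσ : σ ∈ A.inertiaSubgroupIn ℚ) {m : ℕ}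
    (hm : m.Coprime l) {P : ((W.map (Int.castRingHom ℚ))⁄Qb).Point} (hP : m • P = 0) :
    σ • P = P :=
  FrobTo.fix_of_inertia W hl hgood A hA hσ hm hP

end Fermat.Agent.EC.Good.Main
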