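import Fermat.Agent.LR.RedFrobPlug
import Fermat.Agent.LR.RedFrobCount
import Fermat.Agent.Val.ResidueFieldA

/-!
# Program E (S58), block GOOD: the export (★) of HW8 at the residue field of a place of `ℚ̄`

`StarExport` is the literal shape of HW8's export (★) (binder map #1384): for a finite field `F`,
an algebraically closed extension `k`, a Weierstrass curve `W` over `F` with `Δ ≠ 0`, `n : ℤ` and a
prime `lam` invertible in `F`:

  `(∃ P ≠ 0, lam • P = 0 ∧ frobPt F k W P = n • P) ↔ lam ∣ n² - (#F + 1 - #W(F)) n + #F`.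

`star_residueField` instantiates it at `F := ZMod l`, `k := ResidueField A` for a valuation
subring `A` of `ℚ̄` over a good prime `l` of an integral model `W`, in the vocabulary of
`LR/RedFrobCount` (`apOfModel`, `reductionMod`): this is the hypothesis `hstar` (`StarAt`) of
GOOD's `exists_eigen_iff` (contract #1393).
-/

set_option autoImplicit false
set_option linter.style.haveILetI false

open WeierstrassCurve WeierstrassCurve.Affine IsLocalRing

namespace Fermat.Agent.EC.Good.StarRes

open Fermat.Agent.LR.RedFrob

/-- The literal shape of HW8's export (★), at universe level `0`. -/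
def StarExport : Prop :=
  ∀ (F k : Type) [Field F] [Fintype F] [Field k] [Algebra F k] [IsAlgClosed k] [DecidableEq k]
    (W : WeierstrassCurve F), (W.map (algebraMap F k)).Δ ≠ 0 → ∀ (n : ℤ) {lam : ℕ}, lam.Prime →
    (lam : F) ≠ 0 →
    ((∃ P : (W.toAffine⁄k).Point, P ≠ 0 ∧ lam • P = 0 ∧ frobPt F k W P = n • P) ↔
      (lam : ℤ) ∣ n ^ 2 - ((Fintype.card F : ℤ) + 1 - Nat.card W.toAffine.Point) * n
        + Fintype.card F)

local notation "Qb" => AlgebraicClosure ℚ

/-- **(★) at the residue field.**  `l` a good prime of the integral model `W`, `A` a valuation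
subring of `ℚ̄` over `l`, `k := ResidueField A` with its `ZMod l`-algebra structure coming from the
characteristic; `lam ≠ l` a prime, `n : ℤ`. -/
theorem star_residueField (hstar : StarExport) (W : WeierstrassCurve ℤ) {l : ℕ} (hl : l.Prime)
    (hgood : W.IsGoodPrimeFor l) (A : ValuationSubring Qb) (hA : A.LiesOverPrime l)
    [DecidableEq (ResidueField A)] {lam : ℕ} (hlam : lam.Prime) (hne : lam ≠ l) (n : ℤ) :
    haveI := charP_residueField A hl hA
    letI := ZMod.algebra (ResidueField A) l
    haveI : Fact l.Prime := ⟨hl⟩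
    (∃ Q : ((W.reductionMod l).toAffine⁄(ResidueField A)).Point, Q ≠ 0 ∧ lam • Q = 0 ∧
        frobPt (ZMod l) (ResidueField A) (W.reductionMod l) Q = n • Q) ↔
      (lam : ℤ) ∣ n ^ 2 - W.apOfModel l * n + l := by
  have := charP_residueField A hl hA
  letI := ZMod.algebra (ResidueField A) l
  have : Fact l.Prime := ⟨hl⟩
  have : IsAlgClosed (ResidueField A) := Fermat.Agent.Val.residueField_isAlgClosed A
  have hΔ := Δ_ne_zero_of_good W (ResidueField A) hgood
  have hlamF : ((lam : ℕ) : ZMod l) ≠ 0 := by
    intro h0
    have h1 : l ∣ lam := (ZMod.natCast_eq_zero_iff lam l).mp h0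
    exact hne ((Nat.prime_dvd_prime_iff_eq hl hlam).mp h1).symm
  have h := hstar (ZMod l) (ResidueField A) (W.reductionMod l) hΔ n hlam hlamF
  rw [ZMod.card l] at h
  rw [h, apOfModel_eq W]

end Fermat.Agent.EC.Good.StarRes
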