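import Mathlib
import Fermat.Agent.EC.Good.Main
import Fermat.Agent.EC.Good.StarRes

/-!
# Program E (S58), node GOOD (helper19): G-iv / G-v from the export (★) of the HW block

`exists_eigen_iff'` : the statement G-iv/G-v of the binder map #1384 (contract #1393) in its literal
consumer shape (= the hypothesis of `EC/Coeff/Out.coeffOut_of_good`), from
`StarRes.StarExport` (the literal shape of HW8's export (★), `EC/Good/StarRes.lean`):

  `(∃ P ≠ 0 in E(ℚ̄), lam • P = 0 ∧ φ • P = n • P) ↔ lam ∣ n² - a_l n + l`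

for every good prime `l` of `W : WeierstrassCurve ℤ`, every place `A | l`, every Frobenius element
`φ` at `A`, every prime `lam ≠ l` and every `n : ℤ` (`l = 2`, `lam = 2` included).
Also `starAt_of_export` : `Main.StarAt` for every `ZMod l`-algebra structure on the residue field.
-/

set_option autoImplicit false
set_option linter.unusedSectionVars false
set_option linter.style.haveILetI false

open WeierstrassCurve WeierstrassCurve.Affine IsLocalRing Polynomial

namespace Fermat.Agent.EC.Good.MainStar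

open Fermat.Agent.LR.RedFrob Fermat.Agent.EC.Good

local notation "Qb" => AlgebraicClosure ℚ

variable [DecidableEq Qb]

variable (hexport : StarRes.StarExport)
  (W : WeierstrassCurve ℤ) {l : ℕ} (hl : l.Prime) (hgood : W.IsGoodPrimeFor l)
  (A : ValuationSubring Qb) (hA : A.LiesOverPrime l) (φ : Qb ≃ₐ[ℚ] Qb)
  (hφ : A.IsFrobeniusAt φ l)

include hexport hl hgood hA in
omit [DecidableEq Qb] in
/-- (★) at the place `A`, for every `ZMod l`-algebra structure on the residue field. -/
theorem starAt_of_export {lam : ℕ} (hlam : lam.Prime) (hne : lam ≠ l) (n : ℤ) :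
    Main.StarAt W l A n lam := by
  intro _ _ _
  haveI : IsAlgClosed (ResidueField A) := Fermat.Agent.Val.residueField_isAlgClosed A
  have hΔ := Main.Δ_ne_zero W hl hgood A hA
  have hlamF : ((lam : ℕ) : ZMod l) ≠ 0 := by
    intro h0
    have h1 : l ∣ lam := (ZMod.natCast_eq_zero_iff lam l).mp h0
    exact hne ((Nat.prime_dvd_prime_iff_eq hl hlam).mp h1).symm
  have h := hexport (ZMod l) (ResidueField A) (W.reductionMod l) hΔ n hlam hlamF
  rw [ZMod.card l] at h
  rw [h, apOfModel_eq W]

include hexport hl hgood hA hφ in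
/-- **G-iv / G-v** in the literal consumer shape. -/
theorem exists_eigen_iff' {lam : ℕ} (hlam : lam.Prime) (hne : lam ≠ l) (n : ℤ) :
    (∃ P : ((W.map (Int.castRingHom ℚ))⁄Qb).Point, P ≠ 0 ∧ lam • P = 0 ∧ φ • P = n • P) ↔
      (lam : ℤ) ∣ n ^ 2 - W.apOfModel l * n + (l : ℤ) :=
  Main.exists_eigen_iff W hl hgood A hA φ hφ hlam hne n
    (starAt_of_export hexport W hl hgood A hA hlam hne n)

include hexport in
/-- the hypothesis of `EC/Coeff/Out.coeffOut_of_good`, literally -/
theorem good_eigen_all :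
    ∀ W : WeierstrassCurve ℤ, W.Δ ≠ 0 → ∀ {l lam : ℕ}, l.Prime → lam.Prime → l ≠ lam →
      W.IsGoodPrimeFor l → ∀ A : ValuationSubring Qb, A.LiesOverPrime l →
      ∀ φ : Qb ≃ₐ[ℚ] Qb, A.IsFrobeniusAt φ l → ∀ n : ℤ,
      (∃ P : ((W.map (Int.castRingHom ℚ))⁄Qb).Point, P ≠ 0 ∧ lam • P = 0 ∧ φ • P = n • P) ↔
        (lam : ℤ) ∣ n ^ 2 - W.apOfModel l * n + (l : ℤ) :=
  fun W _ _ _ hl hlam hne hgood A hA φ hφ n =>
    exists_eigen_iff' hexport W hl hgood A hA φ hφ hlam hne.symm n

end Fermat.Agent.EC.Good.MainStar
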