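import Mathlib
import Fermat.Agent.EC.Good.FinSide

/-!
# Program E (S58), node (GOOD), finite-field side: the `Finset` forms of the `Frob²` bound (helper4)

The hypothesis `h_bound` of `EC/Good/MainAdapters.le_of_frob_sq_fixed` in its literal shape.

* `finite_frobSq_fixed` : the points fixed by `Frob²` are finitely many (subtype form);
* `finset_card_le_of_frobSq_fixed` : a `Finset` of points fixed by `Frob²` has at most
  `2 q² + 1` elements; `finset_card_le_of_frobSq_fixed_zmod` : `2 l² + 1` for `W.reductionMod l`.
-/

set_option autoImplicit false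
set_option linter.unusedSectionVars false

noncomputable section

open WeierstrassCurve WeierstrassCurve.Affine
open Fermat.Agent.LR.RedFrob Fermat.Agent.EC.Good.FinSide

namespace Fermat.Agent.EC.Good.FinSideFinset

variable (F k : Type*) [Field F] [Fintype F] [Field k] [Algebra F k] [DecidableEq k]
  (W : WeierstrassCurve F)

/-- the points fixed by `Frob²` are finitely many -/
theorem finite_frobSq_fixed :
    Finite {Q : (W.toAffine⁄k).Point // frobPt F k W (frobPt F k W Q) = Q} := by
  have := finite_fixedSqSub F k W
  exact Finite.of_equiv _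
    (Equiv.subtypeEquivRight fun Q => (mem_fixedSqSub F k W (Q := Q)))

/-- **(b), `Finset` form** (`h_bound` of `MainAdapters.le_of_frob_sq_fixed`) -/
theorem finset_card_le_of_frobSq_fixed (T : Finset (W.toAffine⁄k).Point)
    (hT : ∀ Q ∈ T, frobPt F k W (frobPt F k W Q) = Q) :
    T.card ≤ 2 * Fintype.card F ^ 2 + 1 := by
  have := finite_fixedSqSub F k W
  refine le_trans ?_ (card_fixedSqSub_le F k W)
  have hinj : Function.Injective
      (fun Q : T => (⟨Q.1, (mem_fixedSqSub F k W).mpr (hT Q.1 Q.2)⟩ : fixedSqSub F k W)) :=
    fun a b hab => Subtype.ext (congrArg (fun z : fixedSqSub F k W => z.1) hab)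
  have h := Nat.card_le_card_of_injective _ hinj
  rwa [Nat.card_eq_fintype_card, Fintype.card_coe] at h

/-- **(b), `Finset` form, for the reduction of an integral model at `l`** -/
theorem finset_card_le_of_frobSq_fixed_zmod (W : WeierstrassCurve ℤ) {l : ℕ} [Fact l.Prime]
    (k : Type*) [Field k] [Algebra (ZMod l) k] [DecidableEq k]
    (T : Finset ((W.reductionMod l).toAffine⁄k).Point)
    (hT : ∀ Q ∈ T, frobPt (ZMod l) k (W.reductionMod l)
      (frobPt (ZMod l) k (W.reductionMod l) Q) = Q) :
    T.card ≤ 2 * l ^ 2 + 1 := by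
  have h := finset_card_le_of_frobSq_fixed (ZMod l) k (W.reductionMod l) T hT
  rwa [ZMod.card l] at h

end Fermat.Agent.EC.Good.FinSideFinset
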