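import Fermat.Agent.EC.Good.FrobTo

/-!
# EC / GOOD (contract #1393): `hk` and `redTo_frob` for an ARBITRARY `ZMod l`-algebra structure
on the residue field

Same content as `EC/Good/FrobTo` (`hk`, `frobk_some`, `redTo_frob`), but the structure
`[Algebra (ZMod l) (ResidueField A)]` is a BINDER (no `letI := ZMod.algebra ..` inside any
statement), so that the statements compose with `EC/Good/FinSide` (helper4) and `EC/Good/Red`
(helper19) without instance clashes.  The special fibre is written
`(W.reductionMod l).toAffine⁄(ResidueField A)` and the Frobenius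
`LR.RedFrob.frobPt (ZMod l) (ResidueField A) (W.reductionMod l)`, literally.
-/

set_option autoImplicit false

open WeierstrassCurve WeierstrassCurve.Affine IsLocalRing Polynomial
open scoped WeierstrassCurve.Affine

namespace Fermat.Agent.EC.Good.FrobToGen

open Fermat.Agent.LR.RedFrob Fermat.Agent.EC.Good.FrobTo

local notation "Qb" => AlgebraicClosure ℚ

noncomputable section

variable (W : WeierstrassCurve ℤ) (A : ValuationSubring Qb) {l : ℕ} [Fact l.Prime]
  [Algebra (ZMod l) (ResidueField A)]

/-- the special fibre for any `ZMod l`-algebra structure on the residue field. -/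
theorem hk : ((W.reductionMod l).toAffine⁄(ResidueField A) : WeierstrassCurve (ResidueField A)) =
    (W.map (Int.castRingHom A)).map (residue A) := by
  change (W.reductionMod l).map (algebraMap (ZMod l) (ResidueField A)) = _
  rw [WeierstrassCurve.reductionMod, WeierstrassCurve.map_map, WeierstrassCurve.map_map]
  exact congrArg _ (RingHom.ext_int _ _)

variable [DecidableEq (ResidueField A)]

theorem frobPt_some {ξ η : ResidueField A}
    (h : ((W.reductionMod l).toAffine⁄(ResidueField A)).Nonsingular ξ η) :
    ∃ h' : ((W.reductionMod l).toAffine⁄(ResidueField A)).Nonsingular (ξ ^ l) (η ^ l),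
      frobPt (ZMod l) (ResidueField A) (W.reductionMod l) (Point.some ξ η h) =
        Point.some (ξ ^ l) (η ^ l) h' := by
  have h1 : frobPt (ZMod l) (ResidueField A) (W.reductionMod l) (Point.some ξ η h) =
      Point.map (W' := (W.reductionMod l).toAffine)
        (FiniteField.frobeniusAlgHom (ZMod l) (ResidueField A)) (Point.some ξ η h) := rfl
  rw [h1, Point.map_some]
  have e1 : (FiniteField.frobeniusAlgHom (ZMod l) (ResidueField A)) ξ = ξ ^ l := by
    change ξ ^ Fintype.card (ZMod l) = ξ ^ l
    rw [ZMod.card l]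
  have e2 : (FiniteField.frobeniusAlgHom (ZMod l) (ResidueField A)) η = η ^ l := by
    change η ^ Fintype.card (ZMod l) = η ^ l
    rw [ZMod.card l]
  exact RedAdd.some_congr _ e1 e2

variable [DecidableEq Qb]

/-- **Reduction intertwines a Frobenius element at `A` with `frobPt`** (any algebra structure). -/
theorem redTo_frob {φ : Qb ≃ₐ[ℚ] Qb} (hφ : A.IsFrobeniusAt φ l)
    {P : ((W.map (Int.castRingHom ℚ))⁄Qb).Point}
    {Q : ((W.reductionMod l).toAffine⁄(ResidueField A)).Point}
    (h : RedTo A ((W.map (Int.castRingHom ℚ))⁄Qb) ((W.reductionMod l).toAffine⁄(ResidueField A))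
      P Q) :
    RedTo A ((W.map (Int.castRingHom ℚ))⁄Qb) ((W.reductionMod l).toAffine⁄(ResidueField A))
      (φ • P) (frobPt (ZMod l) (ResidueField A) (W.reductionMod l) Q) := by
  obtain ⟨x, y, hxy, hq, rfl, rfl⟩ := h
  have hσmem := hφ.mem_decompositionSubgroup
  set x' : A := ⟨φ (x : Qb), mem_of_mem_decomposition hσmem x.2⟩ with hx'
  set y' : A := ⟨φ (y : Qb), mem_of_mem_decomposition hσmem y.2⟩ with hy'
  have hrx : residue A x' = residue A x ^ l := residue_frobenius_apply hφ x
  have hry : residue A y' = residue A y ^ l := residue_frobenius_apply hφ y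
  have hφP : φ • (Point.some _ _ hxy : ((W.map (Int.castRingHom ℚ))⁄Qb).Point) =
      Point.map φ.toAlgHom (Point.some _ _ hxy) := rfl
  obtain ⟨hq', hfrob⟩ := frobPt_some W A hq
  obtain ⟨hq'', hfrob'⟩ := RedAdd.some_congr hq' hrx.symm hry.symm
  have hxy' : ((W.map (Int.castRingHom ℚ))⁄Qb).Nonsingular (x' : Qb) (y' : Qb) :=
    ((WeierstrassCurve.Affine.baseChange_nonsingular
      (W := (W.map (Int.castRingHom ℚ)).toAffine) (f := φ.toAlgHom) φ.toAlgHom.injective
      (x : Qb) (y : Qb))).mpr hxy
  refine ⟨x', y', hxy', hq'', ?_, ?_⟩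
  · rw [hφP]; rfl
  · rw [hfrob, hfrob']

end

end Fermat.Agent.EC.Good.FrobToGen
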