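import Mathlib

/-!
# Program E (S58), block GOOD: the adapters `G-i`, `G-ii`, `G-iii` (pure group theory)

The three consumer-facing statements `G-i` (`dvd_of_fixed`), `G-ii` (`exists_fixed_of_dvd`) and
`G-iii` (`le_of_frob_sq_fixed`) of the GOOD contract, proved from the signatures of
`EC/Good/Red.lean` (the reduction map `red` on prime-to-`l` torsion: injective, order preserving,
onto), `EC/Good/FrobTo.lean` (`red (φ • P) = frob (red P)`) and `EC/Good/FinSide.lean` (the
finite-field side) taken as HYPOTHESES.  Everything is stated for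

* an additive commutative group `E` (the points over `ℚ̄`) with a distributive action of a
  monoid `G` (the Galois group), `φ : G` (the Frobenius element);
* an additive commutative group `Ek` (the points of the special fibre over the residue field)
  with an endomorphism `frob : Ek →+ Ek` (the Frobenius `frobPt`);
* a map `red : E → Ek` (no additivity needed here),

so that no instance on the residue field enters: `Main.lean` instantiates `E`, `Ek`, `red`,
`frob`, `fixedSub`.
-/

set_option autoImplicit false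

namespace Fermat.Agent.EC.Good.MainAdapters

variable {E Ek G : Type*} [AddCommGroup E] [AddCommGroup Ek] [Monoid G] [DistribMulAction G E]

/-- the action commutes with `m • ·` -/
theorem smul_nsmul_comm (φ : G) (m : ℕ) (P : E) : φ • (m • P) = m • (φ • P) :=
  map_nsmul (DistribSMul.toAddMonoidHom E φ) m P

/-- the action preserves the `m`-torsion -/
theorem nsmul_smul_eq_zero (φ : G) {m : ℕ} {P : E} (hP : m • P = 0) : m • (φ • P) = 0 := by
  rw [← smul_nsmul_comm, hP, smul_zero]

/-- a point of exact order `m` is killed by `m` -/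
theorem nsmul_eq_zero_of_addOrderOf_eq {X : Type*} [AddMonoid X] {m : ℕ} {P : X}
    (hP : addOrderOf P = m) : m • P = 0 := by
  rw [← hP]
  exact addOrderOf_nsmul_eq_zero P

/-! ### `G-i` -/

/-- **(G-i, group form)** a `φ`-fixed point of exact order `m` reduces to a `frob`-fixed point of
exact order `m`, hence `m ∣ #fixedSub`. -/
theorem dvd_natCard_of_fixed {m : ℕ} {red : E → Ek} {φ : G} {frob : Ek →+ Ek}
    (h_order : ∀ P : E, m • P = 0 → addOrderOf (red P) = addOrderOf P)
    (h_frob : ∀ P : E, m • P = 0 → red (φ • P) = frob (red P))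
    (fixedSub : AddSubgroup Ek) (h_mem : ∀ Q : Ek, Q ∈ fixedSub ↔ frob Q = Q)
    {P : E} (hP : addOrderOf P = m) (hfix : φ • P = P) : m ∣ Nat.card fixedSub := by
  have hmP : m • P = 0 := nsmul_eq_zero_of_addOrderOf_eq hP
  have hmem : red P ∈ fixedSub := by
    rw [h_mem, ← h_frob P hmP, hfix]
  have hord : addOrderOf (red P) = m := by rw [h_order P hmP, hP]
  rw [← hord]
  exact AddSubgroup.addOrderOf_dvd_natCard fixedSub hmem

/-- **(G-i)** `dvd_of_fixed` : with `#fixedSub = c` (`c = l + 1 - a_l`). -/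
theorem dvd_of_fixed {m : ℕ} {red : E → Ek} {φ : G} {frob : Ek →+ Ek}
    (h_order : ∀ P : E, m • P = 0 → addOrderOf (red P) = addOrderOf P)
    (h_frob : ∀ P : E, m • P = 0 → red (φ • P) = frob (red P))
    (fixedSub : AddSubgroup Ek) (h_mem : ∀ Q : Ek, Q ∈ fixedSub ↔ frob Q = Q)
    {c : ℤ} (hcard : (Nat.card fixedSub : ℤ) = c)
    {P : E} (hP : addOrderOf P = m) (hfix : φ • P = P) : (m : ℤ) ∣ c := by
  rw [← hcard]
  exact Int.natCast_dvd_natCast.mpr
    (dvd_natCard_of_fixed h_order h_frob fixedSub h_mem hP hfix)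

/-! ### `G-ii` -/

/-- **(G-ii, group form)** a `frob`-fixed point of exact order `m` of the special fibre lifts to a
`φ`-fixed point of exact order `m`. -/
theorem exists_fixed_of_exists {m : ℕ} {red : E → Ek} {φ : G} {frob : Ek →+ Ek}
    (h_inj : ∀ P P' : E, m • P = 0 → m • P' = 0 → red P = red P' → P = P')
    (h_order : ∀ P : E, m • P = 0 → addOrderOf (red P) = addOrderOf P)
    (h_frob : ∀ P : E, m • P = 0 → red (φ • P) = frob (red P))
    (h_surj : ∀ Q : Ek, m • Q = 0 → ∃ P : E, m • P = 0 ∧ red P = Q)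
    {Q : Ek} (hQ : addOrderOf Q = m) (hQfix : frob Q = Q) :
    ∃ P : E, addOrderOf P = m ∧ φ • P = P := by
  obtain ⟨P, hmP, hPQ⟩ := h_surj Q (nsmul_eq_zero_of_addOrderOf_eq hQ)
  refine ⟨P, ?_, ?_⟩
  · rw [← h_order P hmP, hPQ, hQ]
  · refine h_inj _ _ (nsmul_smul_eq_zero φ hmP) hmP ?_
    rw [h_frob P hmP, hPQ, hQfix]

/-- **(G-ii)** `exists_fixed_of_dvd` : `lam ^ n ∣ c = #fixedSub` gives a `φ`-fixed point of exact
order `lam ^ ((n + 1) / 2)`; `h_ex` is `FinSide.exists_addOrderOf_pow_of_dvd`, the hypotheses on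
`red` are at the torsion level `m := lam ^ ((n + 1) / 2)`. -/
theorem exists_fixed_of_dvd {lam n : ℕ} {red : E → Ek} {φ : G} {frob : Ek →+ Ek}
    (h_inj : ∀ P P' : E, lam ^ ((n + 1) / 2) • P = 0 → lam ^ ((n + 1) / 2) • P' = 0 →
      red P = red P' → P = P')
    (h_order : ∀ P : E, lam ^ ((n + 1) / 2) • P = 0 → addOrderOf (red P) = addOrderOf P)
    (h_frob : ∀ P : E, lam ^ ((n + 1) / 2) • P = 0 → red (φ • P) = frob (red P))
    (h_surj : ∀ Q : Ek, lam ^ ((n + 1) / 2) • Q = 0 →
      ∃ P : E, lam ^ ((n + 1) / 2) • P = 0 ∧ red P = Q)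
    (fixedSub : AddSubgroup Ek) (h_mem : ∀ Q : Ek, Q ∈ fixedSub ↔ frob Q = Q)
    {c : ℤ} (hcard : (Nat.card fixedSub : ℤ) = c)
    (h_ex : lam ^ n ∣ Nat.card fixedSub →
      ∃ Q ∈ fixedSub, addOrderOf Q = lam ^ ((n + 1) / 2))
    (hdvd : ((lam ^ n : ℕ) : ℤ) ∣ c) :
    ∃ P : E, addOrderOf P = lam ^ ((n + 1) / 2) ∧ φ • P = P := by
  rw [← hcard, Int.natCast_dvd_natCast] at hdvd
  obtain ⟨Q, hQmem, hQ⟩ := h_ex hdvd
  exact exists_fixed_of_exists h_inj h_order h_frob h_surj hQ ((h_mem Q).mp hQmem)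

/-! ### `G-iii` -/

/-- the multiples of a point fixed by an endomorphism are fixed -/
theorem nsmul_fixed {X : Type*} [AddCommGroup X] (f : X →+ X) {Q : X} (hQ : f (f Q) = Q)
    (i : ℕ) : f (f (i • Q)) = i • Q := by
  rw [map_nsmul, map_nsmul, hQ]

/-- a point of exact order `m ≠ 0` fixed by `f ∘ f` gives `m` points fixed by `f ∘ f` -/
theorem le_of_finset_bound {X : Type*} [AddCommGroup X] (f : X →+ X) {bound : ℕ}
    (h_bound : ∀ T : Finset X, (∀ Q ∈ T, f (f Q) = Q) → T.card ≤ bound)
    {m : ℕ} {Q : X} (hQ : addOrderOf Q = m) (hfix : f (f Q) = Q) : m ≤ bound := by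
  classical
  set T : Finset X := (Finset.range m).image (fun i : ℕ => i • Q) with hT
  have hcard : T.card = m := by
    rw [hT, Finset.card_image_of_injOn, Finset.card_range]
    intro i hi j hj hij
    have hi' : i ∈ Set.Iio (addOrderOf Q) := by
      rw [hQ]; exact Finset.mem_range.mp (Finset.mem_coe.mp hi)
    have hj' : j ∈ Set.Iio (addOrderOf Q) := by
      rw [hQ]; exact Finset.mem_range.mp (Finset.mem_coe.mp hj)
    exact nsmul_injOn_Iio_addOrderOf hi' hj' hij
  rw [← hcard]
  refine h_bound T ?_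
  intro R hR
  obtain ⟨i, -, rfl⟩ := Finset.mem_image.mp hR
  exact nsmul_fixed f hfix i

/-- the `Finset` form of a bound from the `Nat.card` form (for a FINITE set of solutions) -/
theorem finset_bound_of_natCard {X : Type*} (p : X → Prop) [Finite {Q : X // p Q}] {bound : ℕ}
    (h : Nat.card {Q : X // p Q} ≤ bound) (T : Finset X) (hT : ∀ Q ∈ T, p Q) :
    T.card ≤ bound := by
  classical
  refine le_trans ?_ h
  have hinj : Function.Injective (fun Q : T => (⟨Q.1, hT Q.1 Q.2⟩ : {Q : X // p Q})) := by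
    intro a b hab
    exact Subtype.ext (congrArg (fun z : {Q : X // p Q} => z.1) hab)
  have := Nat.card_le_card_of_injective _ hinj
  simpa using this

/-- **(G-iii)** `le_of_frob_sq_fixed` : a point of exact order `m` fixed by `φ²` has
`m ≤ bound`; `h_bound` is `FinSide.card_frobSq_fixed_le` in `Finset` form
(`bound = 2 * l ^ 2 + 1`). -/
theorem le_of_frob_sq_fixed {m : ℕ} {red : E → Ek} {φ : G} {frob : Ek →+ Ek}
    (h_order : ∀ P : E, m • P = 0 → addOrderOf (red P) = addOrderOf P)
    (h_frob : ∀ P : E, m • P = 0 → red (φ • P) = frob (red P))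
    {bound : ℕ} (h_bound : ∀ T : Finset Ek, (∀ Q ∈ T, frob (frob Q) = Q) → T.card ≤ bound)
    {P : E} (hP : addOrderOf P = m) (hfix : φ • φ • P = P) : m ≤ bound := by
  have hmP : m • P = 0 := nsmul_eq_zero_of_addOrderOf_eq hP
  have hord : addOrderOf (red P) = m := by rw [h_order P hmP, hP]
  have hfixQ : frob (frob (red P)) = red P := by
    rw [← h_frob P hmP, ← h_frob (φ • P) (nsmul_smul_eq_zero φ hmP), hfix]
  exact le_of_finset_bound frob h_bound hord hfixQ

end Fermat.Agent.EC.Good.MainAdapters
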